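/-
GATE-L / S58, Tate side (helper27): the density lemma consumed by S58-TOP, in the `TraceLevels`
language of `GJ/Tate/S31Dens.lean` (same set-up as `GK/Tate/S34Dens.lean`, `GK/Tate/S35Dens.lean`).

Let `D` be levelwise data (`E n`, `hecke n : 𝕋 → E n`, `gal n : G_ℚ → E n`) with the Eichler–Shimura
relation at `ℓ ∉ B`, and `ρ` an adic representation with Frobenius characteristic polynomials
`X² - π(T_ℓ) X + ℓ` at `ℓ ∉ B`.  If `σ ∈ G_ℚ` has cyclotomic character `c` (mod every `pⁿ`) and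
satisfies the QUADRATIC relation

  `σ² - s σ + c = 0`   on every level `n`  (`s ∈ 𝕋`),

then `tr ρ(σ) = π s`, `det ρ(σ) = c`, `charpoly ρ(σ) = X² - π(s) X + c`.

S58 uses this with `𝕋 = ℤ`, `E n = End (W[lamⁿ])`, `T_ℓ = a_ℓ(W)`; `σ` a Frobenius lift at a good
prime `q` DIVIDING the level (`q ∈ B`), where the relation is EC-FROB-1.  No freeness of
`W[lamⁿ]`, no trace on the elliptic-curve side, no determinant on the elliptic-curve side.

Also: `TraceLevels.mono` (enlarge the bad set).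
-/
import Fermat.Agent.GK.Tate.S35Dens

set_option autoImplicit false

open Polynomial Module IsLocalRing
open Fermat.Agent.Common_helper32 Fermat.Agent.GJ.Tate Fermat.Agent.GK.Tate

namespace Fermat.Agent.GE.Top.S58Dens

section Mono

variable {𝕋 : Type} [CommRing 𝕋] {Tl : ℕ → 𝕋} {B B' : Finset ℕ} {p : ℕ}

/-- enlarge the bad set of levelwise data -/
def traceLevelsMono (D : TraceLevels 𝕋 Tl B p) (h : B ⊆ B') : TraceLevels 𝕋 Tl B' p where
  E := D.E
  hecke := D.hecke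
  gal := D.gal
  tors := D.tors
  level := D.level
  unram n q hq hqB' := D.unram n q hq (fun hqB => hqB' (h hqB))
  es n ℓ hℓ hℓB' := D.es n ℓ hℓ (fun hℓB => hℓB' (h hℓB))
  faith := D.faith

@[simp] theorem traceLevelsMono_E (D : TraceLevels 𝕋 Tl B p) (h : B ⊆ B') (n : ℕ) :
    (traceLevelsMono D h).E n = D.E n := rfl

theorem traceLevelsMono_gal (D : TraceLevels 𝕋 Tl B p) (h : B ⊆ B') (n : ℕ) (σ : GQ) :
    (traceLevelsMono D h).gal n σ = D.gal n σ := rfl

theorem traceLevelsMono_hecke (D : TraceLevels 𝕋 Tl B p) (h : B ⊆ B') (n : ℕ) (t : 𝕋) :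
    (traceLevelsMono D h).hecke n t = D.hecke n t := rfl

end Mono

section Quad

variable {E : Type*} [Ring E]

/-- If `x` is invertible with inverse `y` and `x² - h x + c = 0` (`c` a natural number) then
`h = x + c y`. -/
theorem eq_add_of_quadratic (x y h : E) (c : ℕ) (hxy : x * y = 1)
    (hq : x * x - h * x + (c : E) = 0) : h = x + (c : E) * y := by
  have h1 : (x * x - h * x + (c : E)) * y = 0 := by rw [hq, zero_mul]
  rw [add_mul, sub_mul, mul_assoc, mul_assoc, hxy, mul_one, mul_one] at h1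
  rw [← sub_eq_zero, ← neg_eq_zero, ← h1]
  abel

end Quad

section Levels

variable {𝕋 : Type} [CommRing 𝕋] {Tl : ℕ → 𝕋} {B : Finset ℕ} {p : ℕ} [Fact p.Prime]
  (D : TraceLevels 𝕋 Tl B p) (hpB : p ∈ B)
  {T : Type} [CommRing T] [IsLocalRing T]
  (π : 𝕋 →+* T) (ρ : GaloisRepAdic T)
  (hfrob : ∀ ℓ : ℕ, ℓ.Prime → ℓ ∉ B → ∀ A : ValuationSubring Qb, A.LiesOverPrime ℓ →
    ∀ σ : GQ, A.IsFrobeniusAt σ ℓ →
      LinearMap.charpoly (ρ.ρ σ) = X ^ 2 - C (π (Tl ℓ)) * X + C ((ℓ : T)))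

include D hpB hfrob in
/-- **S58-DENS, trace.** -/
theorem trace_eq_of_quadratic [IsNoetherianRing T] (hpT : (p : T) ∈ maximalIdeal T) (σ : GQ)
    (c : ℕ)
    (hcyc : ∀ n, ((cycMod p n σ : (ZMod (p ^ n))ˣ) : ZMod (p ^ n)) = (c : ZMod (p ^ n)))
    (s : 𝕋)
    (hquad : ∀ n, D.gal n σ * D.gal n σ - D.hecke n s * D.gal n σ + (c : D.E n) = 0) :
    ρ.trace σ = π s := by
  rw [← sub_eq_zero]
  have hmem : ρ.trace σ - π s ∈ (⨅ n : ℕ, maximalIdeal T ^ n) := by
    rw [Ideal.mem_iInf]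
    intro n
    obtain ⟨c0, hc0⟩ := D.faith
    obtain ⟨t, a, ht1, ht2, ht3⟩ := exists_hecke_approx D hpB π ρ hfrob n (n + c0) σ
    have ha : (a : D.E (n + c0)) = (c : D.E (n + c0)) :=
      natCast_eq_of_zmod_eq (D.tors (n + c0)) (by rw [← ht3, hcyc (n + c0)])
    have hxy : D.gal (n + c0) σ * D.gal (n + c0) σ⁻¹ = 1 := by
      rw [← map_mul, mul_inv_cancel, map_one]
    have h2 : D.hecke (n + c0) s = D.hecke (n + c0) t := by
      rw [ht2, ha]
      exact eq_add_of_quadratic _ _ _ c hxy (hquad (n + c0))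
    have hker : D.hecke (n + c0) (t - s) = 0 := by
      rw [map_sub, h2, sub_self]
    obtain ⟨t'', ht''⟩ := hc0 n (t - s) hker
    have hπ : π t - π s ∈ maximalIdeal T ^ n := by
      rw [← map_sub, ht'', map_nsmul, nsmul_eq_mul, Nat.cast_pow]
      exact Ideal.mul_mem_right _ _ (Ideal.pow_mem_pow hpT n)
    have e : ρ.trace σ - π s = (ρ.trace σ - π t) + (π t - π s) := by ring
    rw [e]
    exact Ideal.add_mem _ ht1 hπ
  rw [Ideal.iInf_pow_eq_bot_of_isLocalRing _ (maximalIdeal.isMaximal T).ne_top] at hmem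
  exact hmem

include D hpB hfrob in
/-- **S58-DENS, characteristic polynomial.** -/
theorem charpoly_eq_of_quadratic [IsNoetherianRing T] (hpT : (p : T) ∈ maximalIdeal T) (σ : GQ)
    (c : ℕ)
    (hcyc : ∀ n, ((cycMod p n σ : (ZMod (p ^ n))ˣ) : ZMod (p ^ n)) = (c : ZMod (p ^ n)))
    (s : 𝕋)
    (hquad : ∀ n, D.gal n σ * D.gal n σ - D.hecke n s * D.gal n σ + (c : D.E n) = 0) :
    LinearMap.charpoly (ρ.ρ σ) = X ^ 2 - C (π s) * X + C ((c : T)) := by
  have ht : LinearMap.trace T ρ.V (ρ.ρ σ) = π s :=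
    trace_eq_of_quadratic D hpB π ρ hfrob hpT σ c hcyc s hquad
  have hd : LinearMap.det (ρ.ρ σ) = (c : T) := det_eq_of_cyc hpB π ρ hfrob hpT σ c hcyc
  rw [charpoly_eq_of_finrank_two ρ.finrank_eq, ht, hd]

include D hpB hfrob in
/-- **S58-DENS, Frobenius lifts at a prime `q ≠ p` (allowed in the bad set `B`)** satisfying a
quadratic relation `φ² - s φ + q = 0` on every level. -/
theorem charpoly_frob_eq_of_quadratic [IsNoetherianRing T] (hpT : (p : T) ∈ maximalIdeal T)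
    (q : ℕ) (hq : q.Prime) (hqp : q ≠ p) (A : ValuationSubring Qb) (hA : A.LiesOverPrime q)
    (φ : GQ) (hφ : A.IsFrobeniusAt φ q) (s : 𝕋)
    (hquad : ∀ n, D.gal n φ * D.gal n φ - D.hecke n s * D.gal n φ + (q : D.E n) = 0) :
    LinearMap.charpoly (ρ.ρ φ) = X ^ 2 - C (π s) * X + C ((q : T)) :=
  charpoly_eq_of_quadratic D hpB π ρ hfrob hpT φ q
    (fun n => cycMod_frob p n A q hq hA hqp φ hφ) s hquad

end Levels

end Fermat.Agent.GE.Top.S58Dens
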