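/-
GATE-L / S58 (helper27): the OUTPUT CONTRACT of the elliptic-curve package, and its consumers.

`ECLevels W lam` = levelwise Tate data of `W/ℤ` at the prime `lam`, in the `TraceLevels` language
of `GJ/Tate/S31Dens.lean` with Hecke ring `𝕋 = ℤ` and `T_ℓ = a_ℓ(W) = W.apOfModel ℓ`:

* `E n`      a ring acting on `W(ℚ̄)[lamⁿ]`  (e.g. `AddMonoid.End` of it),
* `hecke n`  `ℤ → E n`,
* `gal n`    the Galois action,
* `tors`     `lamⁿ = 0` in `E n`,
* `level`    the action factors through a finite extension,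
* `unram`    inertia at good `q ≠ lam` acts trivially                      (EC-RED-INERTIA),
* `es`       `τ² - a_ℓ(W) τ + ℓ = 0` for Frobenius lifts at good `ℓ ≠ lam`   (EC-FROB-1),
* `faith`    an integer killing `W[lam^(n+c)]` is divisible by `lamⁿ`      (EC-TORS: exact order),
* `unip`     `(σ - 1)² = 0` for `σ` in inertia at ANY `q ≠ lam`             (EC-UNIP, semistable).

RELATION FORM only: no trace, determinant or characteristic polynomial on the `W` side.

Consumers (for `ρ : GaloisRepAdic T` with `charpoly ρ(Frob_ℓ) = X² - a_ℓ(W) X + ℓ` outside a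
finite set `B`):
* `isUnipotentOnInertiaAt` : `ρ` is unipotent on inertia at every `q ≠ lam`;
* `charpoly_frob`          : `charpoly ρ(φ) = X² - a_q(W) X + q` for every Frobenius lift `φ` at a
                             `W`-good prime `q ≠ lam` (ALSO for `q ∈ B`).
-/
import Fermat.Agent.GE.Top.S58Dens
import Fermat.Prelude.Def_FLTPrelim_Modularity

set_option autoImplicit false

open Polynomial Module IsLocalRing
open Fermat.Agent.Common_helper32 Fermat.Agent.GJ.Tate Fermat.Agent.GK.Tate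

namespace Fermat.Agent.GE.Top

/-- the bad set of the elliptic-curve side: `lam` and the primes of bad reduction -/
def ecBad (W : WeierstrassCurve ℤ) (lam : ℕ) : Finset ℕ := insert lam W.Δ.natAbs.primeFactors

theorem lam_mem_ecBad (W : WeierstrassCurve ℤ) (lam : ℕ) : lam ∈ ecBad W lam :=
  Finset.mem_insert_self _ _

theorem not_mem_ecBad_of_good {W : WeierstrassCurve ℤ} {lam q : ℕ} (hqlam : q ≠ lam)
    (hgood : W.IsGoodPrimeFor q) : q ∉ ecBad W lam := by
  intro h
  rcases Finset.mem_insert.mp h with h | h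
  · exact hqlam h
  · exact hgood (Int.natCast_dvd.mpr (Nat.dvd_of_mem_primeFactors h))

/-- **The output contract of the elliptic-curve package.** -/
structure ECLevels (W : WeierstrassCurve ℤ) (lam : ℕ) : Type 1 where
  /-- the levelwise data on `W(ℚ̄)[lamⁿ]` -/
  D : TraceLevels ℤ (fun ℓ => W.apOfModel ℓ) (ecBad W lam) lam
  /-- inertia at every prime `q ≠ lam` is unipotent of level two (semistability) -/
  unip : ∀ (n q : ℕ), q.Prime → q ≠ lam → ∀ P : ValuationSubring Qb, P.LiesOverPrime q →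
    ∀ σ ∈ P.inertiaSubgroupIn ℚ, (D.gal n σ - 1) * (D.gal n σ - 1) = 0

namespace ECLevels

variable {W : WeierstrassCurve ℤ} {lam : ℕ} [Fact lam.Prime] (L : ECLevels W lam)
  {T : Type} [CommRing T] [IsLocalRing T]
  (ρ : GaloisRepAdic T) (B : Finset ℕ)
  (hfrob : ∀ ℓ : ℕ, ℓ.Prime → ℓ ∉ B → ∀ A : ValuationSubring Qb, A.LiesOverPrime ℓ →
    ∀ σ : GQ, A.IsFrobeniusAt σ ℓ →
      LinearMap.charpoly (ρ.ρ σ) = X ^ 2 - C ((W.apOfModel ℓ : ℤ) : T) * X + C ((ℓ : T)))

/-- the levelwise data with the bad set enlarged by `B` -/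
noncomputable def DB : TraceLevels ℤ (fun ℓ => W.apOfModel ℓ) (ecBad W lam ∪ B) lam :=
  S58Dens.traceLevelsMono L.D Finset.subset_union_left

omit [Fact lam.Prime] in
include hfrob in
theorem hfrob' : ∀ ℓ : ℕ, ℓ.Prime → ℓ ∉ ecBad W lam ∪ B → ∀ A : ValuationSubring Qb,
    A.LiesOverPrime ℓ → ∀ σ : GQ, A.IsFrobeniusAt σ ℓ →
      LinearMap.charpoly (ρ.ρ σ) =
        X ^ 2 - C (Int.castRingHom T ((fun ℓ => W.apOfModel ℓ) ℓ)) * X + C ((ℓ : T)) :=
  fun ℓ hℓ hℓB A hA σ hσ =>
    hfrob ℓ hℓ (fun h => hℓB (Finset.mem_union_right _ h)) A hA σ hσ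

include L hfrob in
/-- **UNIP**: `ρ` is unipotent on inertia at every prime `q ≠ lam`. -/
theorem isUnipotentOnInertiaAt [IsNoetherianRing T] (hlamT : (lam : T) ∈ maximalIdeal T)
    (q : ℕ) (hq : q.Prime) (hqlam : q ≠ lam) : ρ.IsUnipotentOnInertiaAt q :=
  isUnipotentOnInertiaAt_of_traceLevels (L.DB B)
    (Finset.mem_union_left _ (lam_mem_ecBad W lam)) (Int.castRingHom T) ρ
    (hfrob' ρ B hfrob) hlamT q hq hqlam
    (fun n P hP σ hσ => L.unip n q hq hqlam P hP σ hσ)

include L hfrob in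
/-- **FROB**: at a `W`-good prime `q ≠ lam` (possibly in `B`) every Frobenius lift has
characteristic polynomial `X² - a_q(W) X + q` under `ρ`. -/
theorem charpoly_frob [IsNoetherianRing T] (hlamT : (lam : T) ∈ maximalIdeal T)
    (q : ℕ) (hq : q.Prime) (hqlam : q ≠ lam) (hgood : W.IsGoodPrimeFor q)
    (A : ValuationSubring Qb) (hA : A.LiesOverPrime q) (φ : GQ) (hφ : A.IsFrobeniusAt φ q) :
    LinearMap.charpoly (ρ.ρ φ) = X ^ 2 - C ((W.apOfModel q : ℤ) : T) * X + C ((q : T)) :=
  S58Dens.charpoly_frob_eq_of_quadratic (L.DB B)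
    (Finset.mem_union_left _ (lam_mem_ecBad W lam)) (Int.castRingHom T) ρ
    (hfrob' ρ B hfrob) hlamT q hq hqlam A hA φ hφ (W.apOfModel q)
    (fun n => L.D.es n q hq (not_mem_ecBad_of_good hqlam hgood) A hA φ hφ)

end ECLevels

end Fermat.Agent.GE.Top
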