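/-
GATE-L / S58, EC-ASSEMBLY (helper53): the levelwise data `TraceLevels ℤ (apOfModel W) B lam`
(`GJ/Tate/S31Dens.lean`) of an elliptic curve `W/ℤ` with `Δ ≠ 0`, built on the `lam ^ n`-torsion of
`W(Qbar)`:

  `E n = AddMonoid.End (W(Qbar)[lam ^ n])`, `hecke n = Int.castRingHom`, `gal n = ` the prelude
  Galois action, `B = insert lam (primeFactors Δ)`.

Inputs, in HYPOTHESIS form (pointwise statements on points of `W(Qbar)` killed by `lam ^ n`):

  * `FrobRel W lam`  : `τ τ P - a_ℓ(W) τ P + ℓ P = 0` for `τ` a Frobenius at a good `ℓ ≠ lam`  (E6);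
  * `GoodInertia W lam` : inertia at a good `q ≠ lam` fixes `P`                          (EC-UNIP, good);
  * `UnipInertia W lam` : `σ (σ P - P) = σ P - P` for `σ` in inertia at ANY `q ≠ lam`  (EC-UNIP).

Finiteness, the level and `faith` come from EC-TORS (`GE/Tors/Cor.lean`, helper73).
-/
import Fermat.Agent.GE.Top.ECLevels
import Fermat.Agent.GE.Tors.Cor
import Fermat.Agent.GJ.FiniteLevel

set_option autoImplicit false

open Fermat.Agent.Common_helper32 Fermat.Agent.GJ.Tate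
open scoped WeierstrassCurve.Affine

namespace Fermat.Agent.GE.ECAssembly

open WeierstrassCurve WeierstrassCurve.Affine.Point

/-- the curve over `Qbar` (prelude shape: base change of `W_ℚ`) -/
noncomputable abbrev EQb (W : WeierstrassCurve ℤ) : WeierstrassCurve.Affine Qb :=
  (W.map (Int.castRingHom ℚ))⁄Qb

/-- the `m`-torsion of `W(Qbar)` (prelude shape) -/
noncomputable abbrev TN (W : WeierstrassCurve ℤ) (m : ℕ) : Type :=
  Submodule.torsionBy ℤ (EQb W).Point (m : ℤ)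

/-- the Galois action on the `m`-torsion, as a monoid hom to the endomorphism ring. -/
noncomputable def galEnd (W : WeierstrassCurve ℤ) (m : ℕ) : GQ →* AddMonoid.End (TN W m) :=
  DistribMulAction.toAddMonoidEnd GQ (TN W m)

theorem galEnd_apply (W : WeierstrassCurve ℤ) (m : ℕ) (σ : GQ) (P : TN W m) :
    ((galEnd W m σ) P : (EQb W).Point) = σ • (P : (EQb W).Point) := rfl

/-- **(F′)** EC-FROB-1 in pointwise form: a Frobenius lift `τ` at a good prime `ℓ ≠ lam` satisfies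
`τ² - a_ℓ(W) τ + ℓ = 0` on the points of `W(Qbar)` killed by a power of `lam`. -/
def FrobRel (W : WeierstrassCurve ℤ) (lam : ℕ) : Prop :=
  ∀ (n ℓ : ℕ), ℓ.Prime → ℓ ≠ lam → ¬ (ℓ : ℤ) ∣ W.Δ → ∀ A : ValuationSubring Qb,
    A.LiesOverPrime ℓ → ∀ τ : GQ, A.IsFrobeniusAt τ ℓ → ∀ P : (EQb W).Point,
      (lam ^ n) • P = 0 → τ • τ • P - W.apOfModel ℓ • τ • P + (ℓ : ℤ) • P = 0

/-- **(G′)** inertia at a good prime `q ≠ lam` acts trivially on the `lam`-power torsion. -/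
def GoodInertia (W : WeierstrassCurve ℤ) (lam : ℕ) : Prop :=
  ∀ (n q : ℕ), q.Prime → q ≠ lam → ¬ (q : ℤ) ∣ W.Δ → ∀ A : ValuationSubring Qb,
    A.LiesOverPrime q → ∀ σ ∈ A.inertiaSubgroupIn ℚ, ∀ P : (EQb W).Point,
      (lam ^ n) • P = 0 → σ • P = P

/-- **(M′)** inertia at ANY prime `q ≠ lam` acts unipotently on the `lam`-power torsion
(semistable `W`). -/
def UnipInertia (W : WeierstrassCurve ℤ) (lam : ℕ) : Prop :=
  ∀ (n q : ℕ), q.Prime → q ≠ lam → ∀ A : ValuationSubring Qb,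
    A.LiesOverPrime q → ∀ σ ∈ A.inertiaSubgroupIn ℚ, ∀ P : (EQb W).Point,
      (lam ^ n) • P = 0 → σ • (σ • P - P) = σ • P - P

/-! ### inputs from EC-TORS -/

theorem eqb_Δ_ne_zero (W : WeierstrassCurve ℤ) (hΔ : W.Δ ≠ 0) : (EQb W).Δ ≠ 0 := by
  change ((W.map (Int.castRingHom ℚ)).map (algebraMap ℚ Qb)).Δ ≠ 0
  rw [WeierstrassCurve.map_Δ, WeierstrassCurve.map_Δ]
  simpa using hΔ

theorem finite_TN (W : WeierstrassCurve ℤ) (hΔ : W.Δ ≠ 0) (m : ℕ) (hm : 1 ≤ m) :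
    Finite (TN W m) :=
  Fermat.Agent.GE.Tors.finite_torsionBy (eqb_Δ_ne_zero W hΔ) m hm

theorem exists_exact_order (W : WeierstrassCurve ℤ) (hΔ : W.Δ ≠ 0) {lam : ℕ} (hlam : lam.Prime)
    (n : ℕ) : ∃ P : (EQb W).Point, addOrderOf P = lam ^ n :=
  Fermat.Agent.GE.Tors.exists_addOrderOf_eq_prime_pow (eqb_Δ_ne_zero W hΔ) hlam n

/-! ### the level -/

open Fermat.Agent.GJ.FiniteLevel in
theorem hasLevel_smul_point (W : WeierstrassCurve ℤ) (P : (EQb W).Point) :
    HasLevel (fun σ => σ • P = P) := by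
  rcases P with _ | ⟨x, y, h⟩
  · exact hasLevel_of_forall fun σ => rfl
  · refine ((hasLevel_apply_eq x).and (hasLevel_apply_eq y)).mono fun σ hσ => ?_
    rw [algEquiv_smul_def]
    simp only [WeierstrassCurve.Affine.Point.map_some, WeierstrassCurve.Affine.Point.some.injEq]
    exact hσ

open Fermat.Agent.GJ.FiniteLevel in
theorem galEnd_level (W : WeierstrassCurve ℤ) (hΔ : W.Δ ≠ 0) (m : ℕ) (hm : 1 ≤ m) :
    GaloisFactorsThroughFiniteLevel (galEnd W m) := by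
  have := finite_TN W hΔ m hm
  obtain ⟨E, hE, hfix⟩ := hasLevel_forall_finite
    (fun (P : TN W m) (σ : GQ) => σ • (P : (EQb W).Point) = P)
    (fun P => hasLevel_smul_point W P)
  refine ⟨E, hE, fun σ hσ => ?_⟩
  ext P
  exact hfix σ hσ P

/-! ### the assembly -/

theorem mem_TN_iff (W : WeierstrassCurve ℤ) (m : ℕ) (P : (EQb W).Point) :
    P ∈ Submodule.torsionBy ℤ (EQb W).Point (m : ℤ) ↔ m • P = 0 := by
  rw [Submodule.mem_torsionBy_iff, natCast_zsmul]

theorem nsmul_TN (W : WeierstrassCurve ℤ) (m : ℕ) (P : TN W m) :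
    m • (P : (EQb W).Point) = 0 := (mem_TN_iff W m P).mp P.2

theorem good_of_not_mem (W : WeierstrassCurve ℤ) (hΔ : W.Δ ≠ 0) {lam q : ℕ} (hq : q.Prime)
    (h : q ∉ insert lam W.Δ.natAbs.primeFactors) : q ≠ lam ∧ ¬ (q : ℤ) ∣ W.Δ := by
  rw [Finset.mem_insert, not_or, Nat.mem_primeFactors] at h
  refine ⟨h.1, fun hdvd => h.2 ⟨hq, Int.natCast_dvd.mp hdvd, ?_⟩⟩
  simpa using hΔ

/-- **EC-ASSEMBLY, the levelwise data.** -/
noncomputable def traceLevels (W : WeierstrassCurve ℤ) (hΔ : W.Δ ≠ 0) (lam : ℕ)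
    [hlam : Fact lam.Prime] (hF : FrobRel W lam) (hG : GoodInertia W lam) :
    TraceLevels ℤ (fun ℓ => W.apOfModel ℓ) (Fermat.Agent.GE.Top.ecBad W lam) lam where
  E n := AddMonoid.End (TN W (lam ^ n))
  hecke n := Int.castRingHom _
  gal n := galEnd W (lam ^ n)
  tors n := by
    ext P
    rw [AddMonoid.End.natCast_apply, AddMonoid.End.zero_apply]
    rw [AddSubmonoidClass.coe_nsmul]
    exact nsmul_TN W (lam ^ n) P
  level n := galEnd_level W hΔ (lam ^ n) (Nat.one_le_pow _ _ hlam.out.pos)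
  unram n q hq hqB A hA σ hσ := by
    obtain ⟨hql, hqΔ⟩ := good_of_not_mem W hΔ hq hqB
    ext P
    exact hG n q hq hql hqΔ A hA σ hσ P (nsmul_TN W (lam ^ n) P)
  es n ℓ hℓ hℓB A hA τ hτ := by
    obtain ⟨hql, hqΔ⟩ := good_of_not_mem W hΔ hℓ hℓB
    ext P
    have := hF n ℓ hℓ hql hqΔ A hA τ hτ P (nsmul_TN W (lam ^ n) P)
    rw [eq_intCast]
    change ((galEnd W (lam ^ n) τ (galEnd W (lam ^ n) τ P) -
      ((W.apOfModel ℓ : ℤ) : AddMonoid.End (TN W (lam ^ n))) (galEnd W (lam ^ n) τ P) +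
      ((ℓ : ℕ) : AddMonoid.End (TN W (lam ^ n))) P : TN W (lam ^ n)) : (EQb W).Point) = 0
    rw [AddMonoid.End.intCast_apply, AddMonoid.End.natCast_apply]
    push_cast
    rw [galEnd_apply, galEnd_apply, natCast_zsmul] at *
    exact this
  faith := ⟨0, fun n t ht => by
    obtain ⟨P, hP⟩ := exists_exact_order W hΔ hlam.out n
    have hPmem : P ∈ Submodule.torsionBy ℤ (EQb W).Point ((lam ^ n : ℕ) : ℤ) := by
      rw [mem_TN_iff, ← hP]
      exact addOrderOf_nsmul_eq_zero P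
    have h1 : ((t : ℤ) : AddMonoid.End (TN W (lam ^ n))) ⟨P, hPmem⟩ = 0 := by
      rw [eq_intCast] at ht
      rw [show ((t : ℤ) : AddMonoid.End (TN W (lam ^ n))) = 0 from ht]
      rfl
    rw [AddMonoid.End.intCast_apply] at h1
    have h2 : t • P = 0 := congrArg Subtype.val h1
    have h3 : ((lam ^ n : ℕ) : ℤ) ∣ t := by
      rw [← hP]
      exact addOrderOf_dvd_iff_zsmul_eq_zero.mpr h2
    obtain ⟨t', rfl⟩ := h3
    exact ⟨t', by rw [nsmul_eq_mul]⟩⟩

theorem traceLevels_gal (W : WeierstrassCurve ℤ) (hΔ : W.Δ ≠ 0) (lam : ℕ)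
    [Fact lam.Prime] (hF : FrobRel W lam) (hG : GoodInertia W lam) (n : ℕ) :
    (traceLevels W hΔ lam hF hG).gal n = galEnd W (lam ^ n) := rfl

/-- **EC-ASSEMBLY, unipotence of inertia** at every `q ≠ lam`. -/
theorem traceLevels_unip (W : WeierstrassCurve ℤ) (hΔ : W.Δ ≠ 0) (lam : ℕ)
    [Fact lam.Prime] (hF : FrobRel W lam) (hG : GoodInertia W lam) (hM : UnipInertia W lam)
    (n q : ℕ) (hq : q.Prime) (hql : q ≠ lam) (A : ValuationSubring Qb) (hA : A.LiesOverPrime q)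
    (σ : GQ) (hσ : σ ∈ A.inertiaSubgroupIn ℚ) :
    ((traceLevels W hΔ lam hF hG).gal n σ - 1) * ((traceLevels W hΔ lam hF hG).gal n σ - 1)
      = 0 := by
  change (galEnd W (lam ^ n) σ - 1) * (galEnd W (lam ^ n) σ - 1) =
    (0 : AddMonoid.End (TN W (lam ^ n)))
  ext P
  have := hM n q hq hql A hA σ hσ P (nsmul_TN W (lam ^ n) P)
  change ((galEnd W (lam ^ n) σ (galEnd W (lam ^ n) σ P - P) - (galEnd W (lam ^ n) σ P - P) :
    TN W (lam ^ n)) : (EQb W).Point) = 0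
  push_cast
  rw [galEnd_apply]
  push_cast
  rw [galEnd_apply, this, sub_self]

/-- **EC-ASSEMBLY (hypothesis form)**: helper27's output contract `ECLevels W lam` from the three
pointwise inputs (F′), (G′), (M′). -/
noncomputable def ecLevels (W : WeierstrassCurve ℤ) (hΔ : W.Δ ≠ 0) (lam : ℕ)
    [Fact lam.Prime] (hF : FrobRel W lam) (hG : GoodInertia W lam) (hM : UnipInertia W lam) :
    Fermat.Agent.GE.Top.ECLevels W lam where
  D := traceLevels W hΔ lam hF hG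
  unip := traceLevels_unip W hΔ lam hF hG hM

theorem nonempty_ecLevels (W : WeierstrassCurve ℤ) (hΔ : W.Δ ≠ 0) (lam : ℕ)
    [Fact lam.Prime] (hF : FrobRel W lam) (hG : GoodInertia W lam) (hM : UnipInertia W lam) :
    Nonempty (Fermat.Agent.GE.Top.ECLevels W lam) :=
  ⟨ecLevels W hΔ lam hF hG hM⟩

end Fermat.Agent.GE.ECAssembly
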