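/-
GATE-L / S58, EC-ASSEMBLY final plug (helper53): the output contract `ECLevels W lam` of the
elliptic-curve package, UNCONDITIONALLY for `W/ℤ` semistable with `Δ ≠ 0` and every prime `lam`:

  (F′) = helper55 `GE/E6` (`frobenius_quadratic_torsion_rat`) on helper91's EC-FROB-0
         (`GE/FrobMain.frob_relation'`) through helper55's bridge `frobQuad_of_zmod`;
  (G′), (M′) = helper4 `GE/Unip/Main` (`ec_good`, `ec_unip`);
  (T′) = helper73 `GE/Tors/Cor` (inside `GE/Top/ECAssembly`).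
-/
import Fermat.Agent.GE.Top.ECAssembly
import Fermat.Agent.GE.Unip.Main
import Fermat.Agent.GE.E6.FinalQ
import Fermat.Agent.GE.E6.OfZMod
import Fermat.Agent.GE.FrobMain

set_option autoImplicit false

open Fermat.Agent.Common_helper32 Fermat.Agent.GJ.Tate
open scoped WeierstrassCurve.Affine

namespace Fermat.Agent.GE.ECFinal

open WeierstrassCurve WeierstrassCurve.Affine.Point Fermat.Agent.GE.ECAssembly

theorem not_dvd_pow_of_ne {q lam : ℕ} (hq : q.Prime) (hlam : lam.Prime) (hql : q ≠ lam) (n : ℕ) :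
    ¬ q ∣ lam ^ n := fun h =>
  hql ((Nat.prime_dvd_prime_iff_eq hq hlam).mp (hq.dvd_of_dvd_pow h))

/-- (G′) from helper4's `ec_good`. -/
theorem goodInertia (W : WeierstrassCurve ℤ) {lam : ℕ} (hlam : lam.Prime) : GoodInertia W lam :=
  fun n _ hq hql hqΔ _ hA _ hσ P hP =>
    Fermat.Agent.GE.Unip.ec_good hq hA hqΔ hσ (not_dvd_pow_of_ne hq hlam hql n) P hP

/-- (M′) from helper4's `ec_unip`. -/
theorem unipInertia (W : WeierstrassCurve ℤ) (hss : W.IsSemistableModel) (hΔ : W.Δ ≠ 0) {lam : ℕ}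
    (hlam : lam.Prime) : UnipInertia W lam :=
  fun n _ hq hql _ hA _ hσ P hP =>
    Fermat.Agent.GE.Unip.ec_unip hss hΔ hq hA hσ (not_dvd_pow_of_ne hq hlam hql n) P hP

/-- the reduction of `W` at a good prime has nonzero discriminant -/
theorem reductionMod_Δ_ne_zero (W : WeierstrassCurve ℤ) (l : ℕ) (hgood : W.IsGoodPrimeFor l) :
    (W.reductionMod l).Δ ≠ 0 := by
  unfold WeierstrassCurve.reductionMod
  rw [WeierstrassCurve.map_Δ]
  intro h
  apply hgood
  exact (ZMod.intCast_zmod_eq_zero_iff_dvd _ _).mp (by simpa using h)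

/-- EC-FROB-0 (helper91 et al.) in helper55's `FrobQuad` shape, at any field of characteristic
`l`. -/
theorem frobQuad_of_good (W : WeierstrassCurve ℤ) (l : ℕ) [hl : Fact l.Prime]
    (hgood : W.IsGoodPrimeFor l) (L : Type) [Field L] [DecidableEq L] [CharP L l]
    [ExpChar L l] : Fermat.Agent.GE.E6.FrobQuad W l L := by
  let _ : Algebra (ZMod l) L := ZMod.algebra L l
  have : NeZero l := ⟨hl.out.ne_zero⟩
  refine Fermat.Agent.GE.E6.frobQuad_of_zmod W l L
    (FiniteField.frobeniusAlgHom (ZMod l) L) (fun x => ?_) (fun P => ?_)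
  · rw [FiniteField.frobeniusAlgHom_apply, ZMod.card]
  · have h := Fermat.Agent.GE.FrobMain.frob_relation' l (W.reductionMod l).toAffine
      (reductionMod_Δ_ne_zero W l hgood) L P
    rw [Fermat.Agent.GE.E6.apOfModel_eq W l]
    exact h

/-- (F′) from helper55's E6 on EC-FROB-0. -/
theorem frobRel (W : WeierstrassCurve ℤ) {lam : ℕ} (hlam : lam.Prime) : FrobRel W lam := by
  intro n ℓ hℓ hℓl hℓΔ A hA τ hτ P hP
  have : Fact ℓ.Prime := ⟨hℓ⟩
  have : CharP (IsLocalRing.ResidueField A) ℓ :=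
    Fermat.Agent.GE.E6.charP_residueField_of_liesOverPrime hℓ hA
  have : ExpChar (IsLocalRing.ResidueField A) ℓ := ExpChar.prime hℓ
  let _ : DecidableEq (IsLocalRing.ResidueField A) := Classical.decEq _
  exact Fermat.Agent.GE.E6.frobenius_quadratic_torsion_rat W ℓ hℓΔ (lam ^ n)
    (not_dvd_pow_of_ne hℓ hlam hℓl n) A hA (frobQuad_of_good W ℓ hℓΔ _) τ hτ P hP

/-- **EC-ASSEMBLY, final form**: the output contract of the elliptic-curve package, for every
semistable `W/ℤ` with `Δ ≠ 0` and every prime `lam`. -/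
theorem nonempty_ecLevels (W : WeierstrassCurve ℤ) (hΔ : W.Δ ≠ 0) (hss : W.IsSemistableModel)
    (lam : ℕ) [hlam : Fact lam.Prime] : Nonempty (Fermat.Agent.GE.Top.ECLevels W lam) :=
  Fermat.Agent.GE.ECAssembly.nonempty_ecLevels W hΔ lam (frobRel W hlam.out)
    (goodInertia W hlam.out) (unipInertia W hss hΔ hlam.out)

/-- the exact shape of the hypothesis `hEC` of helper27's `S58Top.s58_of_gates`. -/
theorem hEC : ∀ W : WeierstrassCurve ℤ, W.Δ ≠ 0 → W.IsSemistableModel →
    ∀ (lam : ℕ) [Fact lam.Prime], lam ≠ 2 → Nonempty (Fermat.Agent.GE.Top.ECLevels W lam) :=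
  fun W hΔ hss lam _ _ => nonempty_ecLevels W hΔ hss lam

end Fermat.Agent.GE.ECFinal
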