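/-
GATE-L / S58, node HRES-ODD (helper27): Artin–Schreier-lite.

An involution `c ≠ 1` of an algebraically closed field `K` (char ≠ 2) satisfies
* `c i = -i` for `i ^ 2 = -1`,
* sums of squares of `c`-fixed elements are squares of `c`-fixed elements,
* a `c`-fixed root of unity of odd order is `1`,
* `c μ = μ⁻¹` for every root of unity `μ` of odd order.

No ordered fields, no real closed fields.  Mathlib only.
-/
import Mathlib

set_option autoImplicit false

namespace Fermat.Agent.GE.Top.InvolutionOdd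

variable {K : Type*} [Field K] [IsAlgClosed K]

section Ring

variable (c : K ≃+* K) (hc2 : ∀ x, c (c x) = x) (hc1 : ∃ x, c x ≠ x) (h2 : (2 : K) ≠ 0)

include hc2 hc1 h2

/-- (A) an involution `≠ 1` of an algebraically closed field moves `i`. -/
theorem map_I {i : K} (hi : i * i = -1) : c i = -i := by
  have hci : c i * c i = -1 := by rw [← map_mul, hi, map_neg, map_one]
  have hor : c i = i ∨ c i = -i := by
    have h : (c i - i) * (c i + i) = 0 := by
      have : (c i - i) * (c i + i) = c i * c i - i * i := by ring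
      rw [this, hci, hi, sub_self]
    rcases mul_eq_zero.mp h with h | h
    · exact Or.inl (sub_eq_zero.mp h)
    · exact Or.inr (eq_neg_of_add_eq_zero_left h)
  rcases hor with hfix | hneg
  swap
  · exact hneg
  exfalso
  obtain ⟨x, hx⟩ := hc1
  set α : K := x - c x with hα
  have hα0 : α ≠ 0 := fun h => hx (sub_eq_zero.mp h).symm
  have hcα : c α = -α := by rw [hα, map_sub, hc2]; ring
  obtain ⟨β, hβ⟩ := IsAlgClosed.exists_pow_nat_eq α (n := 2) (by norm_num)
  have hβ0 : β ≠ 0 := by
    rintro rfl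
    apply hα0
    rw [← hβ]; ring
  have hcβ : c β * c β = -(β * β) := by
    rw [← map_mul, ← pow_two, hβ, hcα]
  -- `t = c β / β` is a square root of `-1`
  set t : K := c β / β with ht
  have htt : t * t = -1 := by
    rw [ht, div_mul_div_comm, hcβ, neg_div, div_self (mul_ne_zero hβ0 hβ0)]
  have hti : t = i ∨ t = -i := by
    have h : (t - i) * (t + i) = 0 := by
      have : (t - i) * (t + i) = t * t - i * i := by ring
      rw [this, htt, hi, sub_self]
    rcases mul_eq_zero.mp h with h | h
    · exact Or.inl (sub_eq_zero.mp h)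
    · exact Or.inr (eq_neg_of_add_eq_zero_left h)
  have hct : c t = t := by
    rcases hti with h | h
    · rw [h, hfix]
    · rw [h, map_neg, hfix]
  have hcβ' : c β = t * β := by rw [ht, div_mul_cancel₀ _ hβ0]
  have hccβ : c (c β) = -β := by
    rw [hcβ', map_mul, hct, hcβ', ← mul_assoc, htt]; ring
  rw [hc2] at hccβ
  have : (2 : K) * β = 0 := by
    have : β + β = 0 := by nth_rw 1 [hccβ]; ring
    rw [two_mul]; exact this
  rcases mul_eq_zero.mp this with h | h
  · exact h2 h
  · exact hβ0 h

/-- (B) a sum of two squares of fixed elements is the square of a fixed element. -/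
theorem exists_fixed_sq_eq_add {u v : K} (hu : c u = u) (hv : c v = v) :
    ∃ s : K, c s = s ∧ s * s = u * u + v * v := by
  obtain ⟨i, hi⟩ := IsAlgClosed.exists_pow_nat_eq (-1 : K) (n := 2) (by norm_num)
  have hi' : i * i = -1 := by rw [← pow_two, hi]
  have hci := map_I c hc2 hc1 h2 hi'
  obtain ⟨w, hw⟩ := IsAlgClosed.exists_pow_nat_eq (u + v * i) (n := 2) (by norm_num)
  have hw' : w * w = u + v * i := by rw [← pow_two, hw]
  refine ⟨w * c w, ?_, ?_⟩
  · rw [map_mul, hc2, mul_comm]
  · have h1 : c w * c w = u - v * i := by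
      rw [← map_mul, hw', map_add, map_mul, hu, hv, hci]; ring
    have : w * c w * (w * c w) = (w * w) * (c w * c w) := by ring
    rw [this, hw', h1]
    have : (u + v * i) * (u - v * i) = u * u - v * v * (i * i) := by ring
    rw [this, hi']; ring

/-- (B') a finite sum of squares of fixed elements is the square of a fixed element. -/
theorem exists_fixed_sq_eq_sum {ι : Type*} (s : Finset ι) (f : ι → K) (hf : ∀ j ∈ s, c (f j) = f j) :
    ∃ r : K, c r = r ∧ r * r = ∑ j ∈ s, f j * f j := by
  classical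
  induction s using Finset.induction_on with
  | empty => exact ⟨0, map_zero c, by simp⟩
  | insert a s ha ih =>
    obtain ⟨r, hr, hrr⟩ := ih (fun j hj => hf j (Finset.mem_insert_of_mem hj))
    obtain ⟨r', hr', hrr'⟩ := exists_fixed_sq_eq_add c hc2 hc1 h2
      (hf a (Finset.mem_insert_self a s)) hr
    refine ⟨r', hr', ?_⟩
    rw [Finset.sum_insert ha, hrr', hrr]

/-- `-1` is not the square of a fixed element. -/
theorem fixed_sq_ne_neg_one {s : K} (hs : c s = s) : s * s ≠ -1 := by
  intro h
  have := map_I c hc2 hc1 h2 h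
  rw [hs] at this
  have h0 : (2 : K) * s = 0 := by
    have : s + s = 0 := by nth_rw 1 [this]; ring
    rw [two_mul]; exact this
  rcases mul_eq_zero.mp h0 with h' | h'
  · exact h2 h'
  · rw [h', mul_zero] at h
    exact one_ne_zero (neg_eq_zero.mp h.symm)

/-- (C) a fixed root of unity of odd order is trivial. -/
theorem fixed_eq_one_of_pow_odd {w : K} (hw : c w = w) {m : ℕ} (hm : Odd m) (hwm : w ^ m = 1) :
    w = 1 := by
  by_contra hne
  obtain ⟨k, hk⟩ := hm
  -- `t = w ^ (k + 1)` is a fixed square root of `w`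
  set t : K := w ^ (k + 1) with ht
  have hct : c t = t := by rw [ht, map_pow, hw]
  have htt : t * t = w := by
    rw [ht, ← pow_add, show k + 1 + (k + 1) = m + 1 by omega, pow_succ, hwm, one_mul]
  have hgeom : ∑ j ∈ Finset.range m, w ^ j = 0 := by
    have h := mul_geom_sum w m
    rw [hwm, sub_self] at h
    rcases mul_eq_zero.mp h with h | h
    · exact absurd (sub_eq_zero.mp h) hne
    · exact h
  have hm' : m = (2 * k) + 1 := hk
  rw [hm', Finset.sum_range_succ'] at hgeom
  have hsq : ∑ j ∈ Finset.range (2 * k), w ^ (j + 1) =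
      ∑ j ∈ Finset.range (2 * k), t ^ (j + 1) * t ^ (j + 1) := by
    refine Finset.sum_congr rfl fun j _ => ?_
    rw [← mul_pow, htt]
  obtain ⟨r, hr, hrr⟩ := exists_fixed_sq_eq_sum c hc2 hc1 h2 (Finset.range (2 * k))
    (fun j => t ^ (j + 1)) (fun j _ => by rw [map_pow, hct])
  rw [hsq, ← hrr, pow_zero] at hgeom
  exact fixed_sq_ne_neg_one c hc2 hc1 h2 hr (eq_neg_of_add_eq_zero_left hgeom)

/-- (D) an involution `≠ 1` inverts the roots of unity of odd order. -/
theorem mul_map_eq_one_of_pow_odd {μ : K} {m : ℕ} (hm : Odd m) (hμ : μ ^ m = 1) :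
    μ * c μ = 1 := by
  apply fixed_eq_one_of_pow_odd c hc2 hc1 h2 _ hm
  · rw [mul_pow, ← map_pow, hμ, map_one, mul_one]
  · rw [map_mul, hc2, mul_comm]

theorem map_eq_pow_pred_of_pow_odd {μ : K} {m : ℕ} (hm : Odd m) (hμ : μ ^ m = 1) :
    c μ = μ ^ (m - 1) := by
  have h1 := mul_map_eq_one_of_pow_odd c hc2 hc1 h2 hm hμ
  have hm1 : 1 ≤ m := hm.pos
  have h3 : μ * μ ^ (m - 1) = 1 := by
    rw [← pow_succ', Nat.sub_add_cancel hm1, hμ]
  have hμ0 : μ ≠ 0 := by
    rintro rfl
    rw [zero_mul] at h1
    exact zero_ne_one h1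
  exact mul_left_cancel₀ hμ0 (h1.trans h3.symm)

end Ring

section AlgEquiv

variable {F : Type*} [Field F] [Algebra F K]

/-- the `AlgEquiv` form: an involution `c ≠ 1` in `Gal(K/F)` inverts roots of unity of odd order. -/
theorem algEquiv_map_eq_pow_pred (h2 : (2 : K) ≠ 0) (c : K ≃ₐ[F] K) (hcc : c * c = 1) (hc : c ≠ 1)
    {μ : K} {m : ℕ} (hm : Odd m) (hμ : μ ^ m = 1) : c μ = μ ^ (m - 1) := by
  have hc2 : ∀ x, (c : K ≃+* K) ((c : K ≃+* K) x) = x := by
    intro x
    have := AlgEquiv.congr_fun hcc x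
    simpa using this
  have hc1 : ∃ x, (c : K ≃+* K) x ≠ x := by
    by_contra h
    simp only [not_exists, not_not] at h
    apply hc
    ext x
    simpa using h x
  exact map_eq_pow_pred_of_pow_odd (c : K ≃+* K) hc2 hc1 h2 hm hμ

/-- the `AlgEquiv` form of `c i = -i`. -/
theorem algEquiv_map_I (h2 : (2 : K) ≠ 0) (c : K ≃ₐ[F] K) (hcc : c * c = 1) (hc : c ≠ 1)
    {i : K} (hi : i * i = -1) : c i = -i := by
  have hc2 : ∀ x, (c : K ≃+* K) ((c : K ≃+* K) x) = x := by
    intro x
    have := AlgEquiv.congr_fun hcc x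
    simpa using this
  have hc1 : ∃ x, (c : K ≃+* K) x ≠ x := by
    by_contra h
    simp only [not_exists, not_not] at h
    apply hc
    ext x
    simpa using h x
  exact map_I (c : K ≃+* K) hc2 hc1 h2 hi

end AlgEquiv

end Fermat.Agent.GE.Top.InvolutionOdd
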