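/-
GATE-L / S58 (helper27): the TRIVIAL point count `1 ≤ #W(F_q) ≤ 2q + 1` (report 205,
simplification B): it excludes `a_q(W) = ±(q + 1)` without the Hasse bound.  Mathlib + prelude defs.
-/
import Mathlib
import Fermat.Prelude.Def_FLTPrelim_Modularity

set_option autoImplicit false

open Polynomial

namespace Fermat.Agent.GE.Top.PointCount

open WeierstrassCurve

section Field

variable {F : Type*} [Field F] (V : WeierstrassCurve F)

/-- the quadratic polynomial in `Y` cut out by the Weierstrass equation at a given `x` -/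
noncomputable def yPoly (x : F) : F[X] :=
  X ^ 2 + C (V.a₁ * x + V.a₃) * X - C (x ^ 3 + V.a₂ * x ^ 2 + V.a₄ * x + V.a₆)

theorem yPoly_natDegree (x : F) : (yPoly V x).natDegree = 2 := by
  unfold yPoly
  compute_degree!

theorem yPoly_ne_zero (x : F) : yPoly V x ≠ 0 := by
  intro h
  have := yPoly_natDegree V x
  rw [h, natDegree_zero] at this
  omega

theorem yPoly_eval_eq_zero {x y : F} (h : V.toAffine.Equation x y) : (yPoly V x).eval y = 0 := by
  have h1 := (Affine.equation_iff x y).mp h
  unfold yPoly
  simp only [eval_sub, eval_add, eval_pow, eval_X, eval_mul, eval_C]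
  linear_combination h1

variable [Fintype F] [DecidableEq F]

/-- the finite set of possible `y`-coordinates over `x` -/
noncomputable def ySet (x : F) : Finset F := (yPoly V x).roots.toFinset

omit [Fintype F] in
theorem card_ySet_le (x : F) : (ySet V x).card ≤ 2 := by
  unfold ySet
  calc (yPoly V x).roots.toFinset.card ≤ Multiset.card (yPoly V x).roots :=
        Multiset.toFinset_card_le _
    _ ≤ (yPoly V x).natDegree := card_roots' _
    _ = 2 := yPoly_natDegree V x

/-- the injection of the points into `Option (Σ x, ySet x)` -/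
noncomputable def toSig : V.toAffine.Point → Option (Σ x : F, ↥(ySet V x))
  | .zero => none
  | .some x y h => some ⟨x, ⟨y, by
      unfold ySet
      rw [Multiset.mem_toFinset, mem_roots (yPoly_ne_zero V x)]
      exact yPoly_eval_eq_zero V h.1⟩⟩

omit [Fintype F] in
theorem toSig_injective : Function.Injective (toSig V) := by
  rintro (_ | ⟨x₁, y₁, h₁⟩) (_ | ⟨x₂, y₂, h₂⟩) h
  · rfl
  · simp [toSig] at h
  · simp [toSig] at h
  · simp only [toSig, Option.some.injEq, Sigma.mk.injEq] at h
    obtain ⟨rfl, h'⟩ := h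
    have := eq_of_heq h'
    simp only [Subtype.mk.injEq] at this
    subst this
    rfl

/-- **`#W(F) ≤ 2 |F| + 1`.** -/
theorem card_point_le : Nat.card V.toAffine.Point ≤ 2 * Fintype.card F + 1 := by
  classical
  have h1 : Nat.card V.toAffine.Point ≤ Nat.card (Option (Σ x : F, ↥(ySet V x))) :=
    Nat.card_le_card_of_injective _ (toSig_injective V)
  have h0 : Nat.card (Option (Σ x : F, ↥(ySet V x))) =
      (∑ x : F, Fintype.card ↥(ySet V x)) + 1 := by
    rw [Nat.card_eq_fintype_card, Fintype.card_option, Fintype.card_sigma]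
  rw [h0] at h1
  have h2 : ∑ x : F, Fintype.card ↥(ySet V x) ≤ ∑ _x : F, 2 :=
    Finset.sum_le_sum fun x _ => by rw [Fintype.card_coe]; exact card_ySet_le V x
  rw [Finset.sum_const, Finset.card_univ, smul_eq_mul, mul_comm] at h2
  omega

end Field

/-- `1 ≤ #W(F)` (the point at infinity). -/
theorem one_le_card_point {F : Type*} [CommRing F] [Finite F] (V : WeierstrassCurve F) :
    1 ≤ Nat.card V.toAffine.Point := by
  have : Nonempty V.toAffine.Point := ⟨0⟩
  exact Nat.card_pos

/-- `a_q(W) ≤ q`: in particular `a_q(W) ≠ q + 1`. -/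
theorem apOfModel_le (W : WeierstrassCurve ℤ) (q : ℕ) [NeZero q] : W.apOfModel q ≤ q := by
  unfold WeierstrassCurve.apOfModel WeierstrassCurve.traceOfFrobenius WeierstrassCurve.card
  have h1 := one_le_card_point (W.reductionMod q)
  rw [Nat.card_zmod]
  have : (1 : ℤ) ≤ (Nat.card (W.reductionMod q).toAffine.Point : ℤ) := by exact_mod_cast h1
  linarith

theorem apOfModel_ne_succ (W : WeierstrassCurve ℤ) (q : ℕ) [NeZero q] :
    W.apOfModel q ≠ (q : ℤ) + 1 := by
  have := apOfModel_le W q
  intro h
  rw [h] at this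
  linarith

/-- `-(q + 1) < a_q(W)` for a prime `q`: in particular `a_q(W) ≠ -(q + 1)`. -/
theorem neg_succ_lt_apOfModel (W : WeierstrassCurve ℤ) (q : ℕ) [Fact q.Prime] :
    -((q : ℤ) + 1) < W.apOfModel q := by
  classical
  unfold WeierstrassCurve.apOfModel WeierstrassCurve.traceOfFrobenius WeierstrassCurve.card
  have h1 := card_point_le (W.reductionMod q)
  rw [ZMod.card] at h1
  rw [Nat.card_zmod]
  have : (Nat.card (W.reductionMod q).toAffine.Point : ℤ) ≤ 2 * (q : ℤ) + 1 := by exact_mod_cast h1
  linarith

theorem apOfModel_ne_neg_succ (W : WeierstrassCurve ℤ) (q : ℕ) [Fact q.Prime] :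
    W.apOfModel q ≠ -((q : ℤ) + 1) := by
  have := neg_succ_lt_apOfModel W q
  intro h
  rw [h] at this
  exact lt_irrefl _ this

end Fermat.Agent.GE.Top.PointCount
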