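/-
GATE-L / S58-TOP (helper27): **the frozen statement S58 from the gates**.

  `s58_of_gates : S35Stmt → S36Core → (∀ lam odd, Nonempty (ECLevels W lam)) → frozen S58`

* `S35Stmt`  = the frozen statement S35 (as a `Prop`); `s35Stmt_of_gate : S35Gate → S35Stmt`.
* `S36Core`  = the `hres`-FREE core of S36: for a NON-EISENSTEIN eigensystem there is `ρ` over `O'`
  with clause 1 and NOT unipotent at every `q² ∥ M`; `s36Core_of_gateNE : S36GateNE → S36Core`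
  (helper64's `S36Top.s36_of_gates`).  The eigensystem of `W` is non-Eisenstein for free:
  `a_ℓ(W) = ℓ + 1 - #W(F_ℓ) ≤ ℓ`.  Hence `hirr`, `hp2`, `p` of the frozen S58 are NOT used.
* `ECLevels W lam` = the output contract of the elliptic-curve package (relation form).

Route (report 205 + helper85's `LowValGate`): `g` = newform companion of level `M ∣ N`;
(LOW-c) `q² ∥ M` impossible: `ρ_g` would be non-unipotent at `q` (S36) but `W` semistable makes it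
unipotent (`ECLevels.isUnipotentOnInertiaAt`); (LOW-b) a `W`-good `q ∥ M` impossible: S35 clause 2
gives `a_q(W) = ±(q + 1)`, contradicting `1 ≤ #W(F_q) ≤ 2q + 1`; (VAL) at a `W`-good `ℓ ∣ N`,
`ℓ ∤ M`: S35 clause 1 and `ECLevels.charpoly_frob` give `a_ℓ(g) = a_ℓ(W)`.  The auxiliary prime
`lam` is always ODD and different from the prime under consideration.
-/
import Fermat.Agent.GE.Top.ECLevels
import Fermat.Agent.GE.Top.PointCount
import Fermat.Agent.GE.Mod.Reduce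
import Fermat.Agent.GE.DvrPlace
import Fermat.Agent.GJ.J4.EigChar
import Fermat.Agent.GK.S36.S36Final
import Fermat.Agent.GK.Tate.S35Final
import Fermat.Agent.Common_helper32.FrobeniusExists

set_option autoImplicit false
set_option linter.overlappingInstances false

open CuspForm Polynomial ModularFormClass CongruenceSubgroup

namespace Fermat.Agent.GE.Top.S58Top

open Fermat.Agent.GE.Top Fermat.Agent.GE.Mod.Reduce

/-- `ℚ̄`. -/
local notation "Qb" => AlgebraicClosure ℚ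
/-- `G_ℚ`. -/
local notation "GQ" => (AlgebraicClosure ℚ ≃ₐ[ℚ] AlgebraicClosure ℚ)

/-! ### the two modular gates -/

/-- the frozen statement S35, as a `Prop` -/
def S35Stmt : Prop :=
  ∀ {M : ℕ} [NeZero M] {g : CuspForm (CongruenceSubgroup.Gamma0 M) 2} (_ : g.IsNewform)
    (lam : ℕ) [Fact lam.Prime]
    (S : Finset ℕ)
    (O' : Type) [CommRing O'] [IsDomain O'] [IsDiscreteValuationRing O']
    [IsAdicComplete (IsLocalRing.maximalIdeal O') O'] [Finite (IsLocalRing.ResidueField O')]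
    [CharZero O'] (_ : (lam : O') ∈ IsLocalRing.maximalIdeal O')
    (chig : CuspForm.heckeAlgebra M 2 (↑S : Set ℕ) →+* ℂ)
    (_ : ∀ (ℓ : ℕ) (hℓ : ℓ.Prime) (hℓM : ¬ ℓ ∣ M) (hℓS : ℓ ∉ (↑S : Set ℕ)),
      chig (CuspForm.heckeAlgebra.T hℓ hℓM hℓS) = ModularFormClass.qCoeff g ℓ)
    (iota : chig.range →+* O')
    (_ : lam ∈ S) (_ : ∀ q : ℕ, q.Prime → q ∣ M → q ∈ S),
    ∃ (O'' : Type) (_ : CommRing O'') (_ : IsDomain O'') (_ : IsDiscreteValuationRing O'')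
      (_ : IsAdicComplete (IsLocalRing.maximalIdeal O'') O'') (_ : Finite (IsLocalRing.ResidueField O''))
      (_ : CharZero O'') (_ : Algebra O' O'') (_ : Module.Finite O' O'') (_ : IsLocalHom (algebraMap O' O'')),
      Function.Injective (algebraMap O' O'') ∧
      ∃ ρ : GaloisRepAdic O'',
        (∀ (ℓ : ℕ) (hℓ : ℓ.Prime) (hℓM : ¬ ℓ ∣ M) (hℓS : ℓ ∉ (↑S : Set ℕ)),
          ∀ A : ValuationSubring (AlgebraicClosure ℚ), A.LiesOverPrime ℓ →
            ∀ σ : AlgebraicClosure ℚ ≃ₐ[ℚ] AlgebraicClosure ℚ, A.IsFrobeniusAt σ ℓ →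
              LinearMap.charpoly (ρ.ρ σ) =
                X ^ 2 - C (algebraMap O' O'' ((iota.comp chig.rangeRestrict) (CuspForm.heckeAlgebra.T hℓ hℓM hℓS))) * X
                  + C ((ℓ : O''))) ∧
        (∀ q : ℕ, q.Prime → q ≠ lam → q ∣ M → ¬ q ^ 2 ∣ M →
          ∀ A : ValuationSubring (AlgebraicClosure ℚ), A.LiesOverPrime q →
            ∀ σ : AlgebraicClosure ℚ ≃ₐ[ℚ] AlgebraicClosure ℚ, A.IsFrobeniusAt σ q →
              LinearMap.charpoly (ρ.ρ σ) = X ^ 2 - C ((q : O'') + 1) * X + C ((q : O'')) ∨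
              LinearMap.charpoly (ρ.ρ σ) = X ^ 2 + C ((q : O'') + 1) * X + C ((q : O'')))

theorem s35Stmt_of_gate (hG : Fermat.Agent.GK.Tate.S35Final.S35Gate) : S35Stmt :=
  fun hg lam _ S O' _ _ _ _ _ _ hlamO' chig hchig iota hlamS hMS =>
    Fermat.Agent.GK.Tate.S35Final.s35_of_gate hG hg lam S O' hlamO' chig hchig iota hlamS hMS

/-- the `hres`-free core of S36: a NON-EISENSTEIN eigensystem of a newform of level `M` has a
`lam`-adic representation over `O'` itself which is NOT unipotent at any `q² ∥ M`, `q ≠ lam`. -/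
def S36Core : Prop :=
  ∀ {M : ℕ} [NeZero M] {g : CuspForm (CongruenceSubgroup.Gamma0 M) 2} (_ : g.IsNewform)
    (lam : ℕ) [Fact lam.Prime]
    (S : Finset ℕ)
    (O' : Type) [CommRing O'] [IsDomain O'] [IsDiscreteValuationRing O']
    [IsAdicComplete (IsLocalRing.maximalIdeal O') O'] [Finite (IsLocalRing.ResidueField O')]
    [CharZero O'] (_ : (lam : O') ∈ IsLocalRing.maximalIdeal O')
    (_ : lam ≠ 2)
    (chig : CuspForm.heckeAlgebra M 2 (↑S : Set ℕ) →+* ℂ)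
    (_ : ∀ (ℓ : ℕ) (hℓ : ℓ.Prime) (hℓM : ¬ ℓ ∣ M) (hℓS : ℓ ∉ (↑S : Set ℕ)),
      chig (CuspForm.heckeAlgebra.T hℓ hℓM hℓS) = ModularFormClass.qCoeff g ℓ)
    (iota : chig.range →+* O')
    (_ : lam ∈ S) (_ : ∀ q : ℕ, q.Prime → q ∣ M → q ∈ S)
    (_ : ∃ (ℓ : ℕ) (hℓ : ℓ.Prime) (hℓM : ¬ ℓ ∣ M) (hℓS : ℓ ∉ (↑S : Set ℕ)),
      ℓ ≠ lam ∧ chig (CuspForm.heckeAlgebra.T hℓ hℓM hℓS) ≠ (ℓ : ℂ) + 1),
    ∃ ρ : GaloisRepAdic O',
      (∀ (ℓ : ℕ) (hℓ : ℓ.Prime) (hℓM : ¬ ℓ ∣ M) (hℓS : ℓ ∉ (↑S : Set ℕ)),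
        ∀ A : ValuationSubring (AlgebraicClosure ℚ), A.LiesOverPrime ℓ →
          ∀ σ : AlgebraicClosure ℚ ≃ₐ[ℚ] AlgebraicClosure ℚ, A.IsFrobeniusAt σ ℓ →
            LinearMap.charpoly (ρ.ρ σ) =
              X ^ 2 - C ((iota.comp chig.rangeRestrict) (CuspForm.heckeAlgebra.T hℓ hℓM hℓS)) * X
                + C ((ℓ : O'))) ∧
      (∀ q : ℕ, q.Prime → q ≠ lam → M.factorization q = 2 → ¬ ρ.IsUnipotentOnInertiaAt q)

theorem s36Core_of_gateNE (hG : Fermat.Agent.GK.S36.S36Final.S36GateNE) : S36Core := by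
  intro M _ g hg lam _ S O' _ _ _ _ _ _ hlamO' hlam2 chig hchig iota hlamS hMS hNE
  have hfin : Module.Finite ℤ (CuspForm.heckeAlgebra M 2 (↑S : Set ℕ)) :=
    Fermat.Agent.S22.result M 2 (↑S : Set ℕ)
  have hinj : Function.Injective iota :=
    Fermat.Agent.GK.Tate.S35Iota.injective_of_range chig iota
  have hK : Fermat.Agent.GJ.Tate.S31Top.K18sPow :=
    Fermat.Agent.GJ.Tate.S30Final.k18sPow_of_aux Fermat.Agent.GJ.J1.K18sAllFinal.k18sAux
  exact Fermat.Agent.GK.S36.S36Top.s36_of_gates hK lam M S hlamS hMS O' hlamO'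
    (iota.comp chig.rangeRestrict) (fun q hq hqlam hq2 => by
      obtain ⟨t, ht, hGt⟩ := hG hg lam S hlam2 chig hchig hlamS hMS hNE q hq hqlam hq2
      refine ⟨t, ?_, hGt⟩
      intro h0
      apply ht
      have h1 : iota (chig.rangeRestrict t) = iota 0 := by rw [map_zero]; exact h0
      have h2 := congrArg Subtype.val (hinj h1)
      exact h2)

/-! ### small lemmas -/

/-- an odd prime different from `q` -/
theorem exists_odd_prime_ne (q : ℕ) : ∃ lam : ℕ, lam.Prime ∧ lam ≠ 2 ∧ lam ≠ q := by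
  by_cases h : q = 3
  · exact ⟨5, by norm_num, by norm_num, by omega⟩
  · exact ⟨3, Nat.prime_three, by norm_num, fun h' => h h'.symm⟩

/-- a prime outside a finite set -/
theorem exists_prime_not_mem (B : Finset ℕ) : ∃ ℓ : ℕ, ℓ.Prime ∧ ℓ ∉ B := by
  obtain ⟨p, hpB, hp⟩ := Nat.exists_infinite_primes (B.sup id + 1)
  refine ⟨p, hp, fun h => ?_⟩
  have : p ≤ B.sup id := Finset.le_sup (f := id) h
  omega

/-- the value of `iota ∘ chig` at an operator whose eigenvalue is an integer -/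
theorem iota_rangeRestrict_eq_intCast {A : Type*} [CommRing A] (chig : A →+* ℂ)
    {O : Type*} [CommRing O] (iota : chig.range →+* O) (t : A) (n : ℤ)
    (h : chig t = (n : ℂ)) : (iota.comp chig.rangeRestrict) t = (n : O) := by
  have h1 : chig.rangeRestrict t = ((n : ℤ) : chig.range) := by
    apply Subtype.ext
    rw [RingHom.coe_rangeRestrict, h]
    push_cast
    rfl
  rw [RingHom.comp_apply, h1, map_intCast]

/-- the coefficient of `X` of `X² - a X + b` -/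
theorem coeff_one_quadratic {R : Type*} [CommRing R] (a b : R) :
    (X ^ 2 - C a * X + C b : R[X]).coeff 1 = -a := by
  simp [coeff_X_pow, coeff_C]

theorem coeff_one_quadratic' {R : Type*} [CommRing R] (a b : R) :
    (X ^ 2 + C a * X + C b : R[X]).coeff 1 = a := by
  simp [coeff_X_pow, coeff_C]

/-! ### the main argument -/

/-- the finite set of primes to avoid: `lam`, the primes of `M` and `N`, the bad primes of `W` -/
def avoid (W : WeierstrassCurve ℤ) (N M lam : ℕ) : Finset ℕ :=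
  (insert lam M.primeFactors) ∪ N.primeFactors ∪ W.Δ.natAbs.primeFactors

theorem props_of_not_mem_avoid (W : WeierstrassCurve ℤ) (hΔ : W.Δ ≠ 0) {N M : ℕ} (hN0 : N ≠ 0)
    (hMN : M ∣ N) {lam ℓ : ℕ} (hℓ : ℓ.Prime) (h : ℓ ∉ avoid W N M lam) :
    ¬ ℓ ∣ N ∧ ¬ ℓ ∣ M ∧ ℓ ∉ ((insert lam M.primeFactors : Finset ℕ) : Set ℕ) ∧ ℓ ≠ lam ∧
      W.IsGoodPrimeFor ℓ := by
  unfold avoid at h
  simp only [Finset.mem_union, not_or] at h
  obtain ⟨⟨h1, h2⟩, h3⟩ := h
  have hN : ¬ ℓ ∣ N := fun hd => h2 (Nat.mem_primeFactors.mpr ⟨hℓ, hd, hN0⟩)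
  refine ⟨hN, fun hd => hN (hd.trans hMN), by simpa using h1, ?_, ?_⟩
  · rintro rfl
    exact h1 (Finset.mem_insert_self _ _)
  · intro hd
    exact h3 (Nat.mem_primeFactors.mpr
      ⟨hℓ, Int.natCast_dvd.mp hd, Int.natAbs_ne_zero.mpr hΔ⟩)

/-- the eigencharacter of `g` on the Hecke algebra away from `S` (GJ/J4/EigChar) -/
noncomputable def chigOf {M : ℕ} [NeZero M] {g : CuspForm (Gamma0 M) 2}
    (hg : g.IsNormalizedEigenform) (S : Finset ℕ) :
    CuspForm.heckeAlgebra M 2 (↑S : Set ℕ) →+* ℂ :=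
  Fermat.Agent.GJ.EigChar.lam hg

theorem chigOf_T {M : ℕ} [NeZero M] {g : CuspForm (Gamma0 M) 2}
    (hg : g.IsNormalizedEigenform) (S : Finset ℕ) (ℓ : ℕ) (hℓ : ℓ.Prime) (hℓM : ¬ ℓ ∣ M)
    (hℓS : ℓ ∉ (↑S : Set ℕ)) :
    chigOf hg S (CuspForm.heckeAlgebra.T hℓ hℓM hℓS) = qCoeff g ℓ :=
  Fermat.Agent.GJ.EigChar.lam_T hg hℓ hℓM hℓS

section Main

variable (W : WeierstrassCurve ℤ) (hΔ : W.Δ ≠ 0)
  {N : ℕ} (hN0 : N ≠ 0)
  {M : ℕ} [NeZero M] (hMN : M ∣ N) {g : CuspForm (Gamma0 M) 2} (hg : g.IsNewform)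
  (hgW : ∀ ℓ : ℕ, ℓ.Prime → W.IsGoodPrimeFor ℓ → ¬ ℓ ∣ N → qCoeff g ℓ = (W.apOfModel ℓ : ℂ))

include hΔ hN0 hMN hgW in
/-- clause 1 of S35 / S36 for the companion `g` of `W`, in the shape consumed by `ECLevels` -/
theorem hfrob_of_clause1 (lam : ℕ)
    {T : Type} [CommRing T] [IsLocalRing T]
    (χ : CuspForm.heckeAlgebra M 2 (↑(insert lam M.primeFactors : Finset ℕ) : Set ℕ) →+* T)
    (hχ : ∀ (t : CuspForm.heckeAlgebra M 2 (↑(insert lam M.primeFactors : Finset ℕ) : Set ℕ))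
      (n : ℤ), chigOf hg.1 (insert lam M.primeFactors) t = (n : ℂ) → χ t = (n : T))
    (ρ : GaloisRepAdic T)
    (cl1 : ∀ (ℓ : ℕ) (hℓ : ℓ.Prime) (hℓM : ¬ ℓ ∣ M)
        (hℓS : ℓ ∉ (↑(insert lam M.primeFactors : Finset ℕ) : Set ℕ)),
        ∀ A : ValuationSubring Qb, A.LiesOverPrime ℓ → ∀ σ : GQ, A.IsFrobeniusAt σ ℓ →
          LinearMap.charpoly (ρ.ρ σ) =
            X ^ 2 - C (χ (CuspForm.heckeAlgebra.T hℓ hℓM hℓS)) * X + C ((ℓ : T))) :
    ∀ ℓ : ℕ, ℓ.Prime → ℓ ∉ avoid W N M lam → ∀ A : ValuationSubring Qb, A.LiesOverPrime ℓ →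
      ∀ σ : GQ, A.IsFrobeniusAt σ ℓ →
        LinearMap.charpoly (ρ.ρ σ) = X ^ 2 - C ((W.apOfModel ℓ : ℤ) : T) * X + C ((ℓ : T)) := by
  intro ℓ hℓ hℓB A hA σ hσ
  obtain ⟨hℓN, hℓM, hℓS, -, hgood⟩ := props_of_not_mem_avoid W hΔ hN0 hMN hℓ hℓB
  rw [cl1 ℓ hℓ hℓM hℓS A hA σ hσ,
    hχ _ (W.apOfModel ℓ) (by rw [chigOf_T, hgW ℓ hℓ hgood hℓN])]

variable (hS35 : S35Stmt) (hS36 : S36Core)
  (hEC : ∀ (lam : ℕ) [Fact lam.Prime], lam ≠ 2 → Nonempty (ECLevels W lam))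

include hΔ hN0 hMN hg hgW hS36 hEC in
/-- **(LOW-c)**: no prime divides the level of the companion exactly twice. -/
theorem factorization_ne_two (q : ℕ) (hq : q.Prime) : M.factorization q ≠ 2 := by
  intro hq2
  obtain ⟨lam, hlam, hlam2, hlamq⟩ := exists_odd_prime_ne q
  have : Fact lam.Prime := ⟨hlam⟩
  have hlamS : lam ∈ (insert lam M.primeFactors : Finset ℕ) := Finset.mem_insert_self _ _
  have hMS : ∀ r : ℕ, r.Prime → r ∣ M → r ∈ (insert lam M.primeFactors : Finset ℕ) :=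
    fun r hr hrM => Finset.mem_insert_of_mem (Nat.mem_primeFactors.mpr ⟨hr, hrM, NeZero.ne M⟩)
  obtain ⟨O', _, _, _, _, _, _, hlamO', iota, -⟩ :=
    Fermat.Agent.GE.DvrPlace.exists_place_of_chig
      (↑(insert lam M.primeFactors : Finset ℕ) : Set ℕ)
      (chigOf hg.1 (insert lam M.primeFactors)) lam
  -- the eigensystem of `W` is not Eisenstein
  obtain ⟨ℓ, hℓ, hℓB⟩ := exists_prime_not_mem (avoid W N M lam)
  obtain ⟨hℓN, hℓM, hℓS, hℓlam, hgood⟩ := props_of_not_mem_avoid W hΔ hN0 hMN hℓ hℓB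
  have hNE : ∃ (ℓ : ℕ) (hℓ : ℓ.Prime) (hℓM : ¬ ℓ ∣ M)
      (hℓS : ℓ ∉ (↑(insert lam M.primeFactors : Finset ℕ) : Set ℕ)),
      ℓ ≠ lam ∧ chigOf hg.1 (insert lam M.primeFactors)
        (CuspForm.heckeAlgebra.T hℓ hℓM hℓS) ≠ (ℓ : ℂ) + 1 := by
    refine ⟨ℓ, hℓ, hℓM, hℓS, hℓlam, ?_⟩
    rw [chigOf_T, hgW ℓ hℓ hgood hℓN]
    intro h
    have : NeZero ℓ := ⟨hℓ.ne_zero⟩
    apply PointCount.apOfModel_ne_succ W ℓ
    exact_mod_cast h
  obtain ⟨ρ, cl1, hnu⟩ := hS36 hg lam (insert lam M.primeFactors) O' hlamO' hlam2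
    (chigOf hg.1 (insert lam M.primeFactors))
    (fun ℓ hℓ hℓM hℓS => chigOf_T hg.1 _ ℓ hℓ hℓM hℓS) iota hlamS hMS hNE
  obtain ⟨L⟩ := hEC lam hlam2
  have hfrob := hfrob_of_clause1 W hΔ hN0 hMN hg hgW lam
    (iota.comp (chigOf hg.1 (insert lam M.primeFactors)).rangeRestrict)
    (fun t n h => iota_rangeRestrict_eq_intCast _ iota t n h) ρ cl1
  exact hnu q hq hlamq.symm hq2
    (L.isUnipotentOnInertiaAt ρ (avoid W N M lam) hfrob hlamO' q hq hlamq.symm)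

include hΔ hN0 hMN hg hgW hS35 hS36 hEC in
/-- **(LOW-b)**: a `W`-good prime does not divide the level of the companion. -/
theorem not_dvd_of_good (hN3 : ∀ q : ℕ, q.Prime → ¬ q ^ 3 ∣ N) (q : ℕ) (hq : q.Prime)
    (hgood : W.IsGoodPrimeFor q) : ¬ q ∣ M := by
  intro hqM
  have hM0 : M ≠ 0 := NeZero.ne M
  have hq2 : ¬ q ^ 2 ∣ M := by
    intro h2
    have h3 : ¬ q ^ 3 ∣ M := fun h => hN3 q hq (h.trans hMN)
    apply factorization_ne_two W hΔ hN0 hMN hg hgW hS36 hEC q hq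
    have h2' : 2 ≤ M.factorization q := (hq.pow_dvd_iff_le_factorization hM0).mp h2
    have h3' : ¬ 3 ≤ M.factorization q :=
      fun h => h3 ((hq.pow_dvd_iff_le_factorization hM0).mpr h)
    omega
  obtain ⟨lam, hlam, hlam2, hlamq⟩ := exists_odd_prime_ne q
  have : Fact lam.Prime := ⟨hlam⟩
  have : Fact q.Prime := ⟨hq⟩
  have hlamS : lam ∈ (insert lam M.primeFactors : Finset ℕ) := Finset.mem_insert_self _ _
  have hMS : ∀ r : ℕ, r.Prime → r ∣ M → r ∈ (insert lam M.primeFactors : Finset ℕ) :=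
    fun r hr hrM => Finset.mem_insert_of_mem (Nat.mem_primeFactors.mpr ⟨hr, hrM, hM0⟩)
  obtain ⟨O', _, _, _, _, _, _, hlamO', iota, -⟩ :=
    Fermat.Agent.GE.DvrPlace.exists_place_of_chig
      (↑(insert lam M.primeFactors : Finset ℕ) : Set ℕ)
      (chigOf hg.1 (insert lam M.primeFactors)) lam
  obtain ⟨O'', _, _, _, _, _, _, _, _, _, -, ρ, cl1, cl2⟩ :=
    hS35 hg lam (insert lam M.primeFactors) O' hlamO'
      (chigOf hg.1 (insert lam M.primeFactors))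
      (fun ℓ hℓ hℓM hℓS => chigOf_T hg.1 _ ℓ hℓ hℓM hℓS) iota hlamS hMS
  obtain ⟨L⟩ := hEC lam hlam2
  have hlamO'' : (lam : O'') ∈ IsLocalRing.maximalIdeal O'' := by
    have h := map_nonunit (algebraMap O' O'') (lam : O') hlamO'
    rwa [map_natCast] at h
  have hfrob := hfrob_of_clause1 W hΔ hN0 hMN hg hgW lam
    ((algebraMap O' O'').comp
      (iota.comp (chigOf hg.1 (insert lam M.primeFactors)).rangeRestrict))
    (fun t n h => by
      rw [RingHom.comp_apply, iota_rangeRestrict_eq_intCast _ iota t n h, map_intCast]) ρ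
    (fun ℓ hℓ hℓM hℓS A hA σ hσ => cl1 ℓ hℓ hℓM hℓS A hA σ hσ)
  obtain ⟨A, σ, hA, hσ⟩ := Fermat.Agent.Common_helper32.exists_isFrobeniusAt q hq
  have h1 := L.charpoly_frob ρ (avoid W N M lam) hfrob hlamO'' q hq hlamq.symm hgood A hA σ hσ
  rcases cl2 q hq hlamq.symm hqM hq2 A hA σ hσ with h2 | h2
  · have h3 := congrArg (fun P : O''[X] => P.coeff 1) (h1.symm.trans h2)
    simp only [coeff_one_quadratic] at h3
    have h4 : ((W.apOfModel q : ℤ) : O'') = (((q : ℤ) + 1 : ℤ) : O'') := by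
      push_cast
      exact neg_injective h3
    exact PointCount.apOfModel_ne_succ W q (Int.cast_injective h4)
  · have h3 := congrArg (fun P : O''[X] => P.coeff 1) (h1.symm.trans h2)
    simp only [coeff_one_quadratic, coeff_one_quadratic'] at h3
    have h4 : ((W.apOfModel q : ℤ) : O'') = ((-((q : ℤ) + 1) : ℤ) : O'') := by
      push_cast
      rw [← h3, neg_neg]
    exact PointCount.apOfModel_ne_neg_succ W q (Int.cast_injective h4)

include hΔ hN0 hMN hg hgW hS35 hEC in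
/-- **(VAL)**: at a `W`-good prime `ℓ ∤ M` (e.g. `ℓ ∣ N`) the companion has the coefficient of
`W`. -/
theorem qCoeff_eq_of_good (ℓ : ℕ) (hℓ : ℓ.Prime) (hgood : W.IsGoodPrimeFor ℓ) (hℓM : ¬ ℓ ∣ M) :
    qCoeff g ℓ = (W.apOfModel ℓ : ℂ) := by
  have hM0 : M ≠ 0 := NeZero.ne M
  obtain ⟨lam, hlam, hlam2, hlamℓ⟩ := exists_odd_prime_ne ℓ
  have : Fact lam.Prime := ⟨hlam⟩
  have hlamS : lam ∈ (insert lam M.primeFactors : Finset ℕ) := Finset.mem_insert_self _ _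
  have hMS : ∀ r : ℕ, r.Prime → r ∣ M → r ∈ (insert lam M.primeFactors : Finset ℕ) :=
    fun r hr hrM => Finset.mem_insert_of_mem (Nat.mem_primeFactors.mpr ⟨hr, hrM, hM0⟩)
  have hℓS : ℓ ∉ (↑(insert lam M.primeFactors : Finset ℕ) : Set ℕ) := by
    intro h
    rcases Finset.mem_insert.mp (Finset.mem_coe.mp h) with h | h
    · exact hlamℓ h.symm
    · exact hℓM (Nat.dvd_of_mem_primeFactors h)
  obtain ⟨O', _, _, _, _, _, _, hlamO', iota, hiota⟩ :=
    Fermat.Agent.GE.DvrPlace.exists_place_of_chig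
      (↑(insert lam M.primeFactors : Finset ℕ) : Set ℕ)
      (chigOf hg.1 (insert lam M.primeFactors)) lam
  obtain ⟨O'', _, _, _, _, _, _, _, _, _, hinj, ρ, cl1, -⟩ :=
    hS35 hg lam (insert lam M.primeFactors) O' hlamO'
      (chigOf hg.1 (insert lam M.primeFactors))
      (fun ℓ hℓ hℓM hℓS => chigOf_T hg.1 _ ℓ hℓ hℓM hℓS) iota hlamS hMS
  obtain ⟨L⟩ := hEC lam hlam2
  have hlamO'' : (lam : O'') ∈ IsLocalRing.maximalIdeal O'' := by
    have h := map_nonunit (algebraMap O' O'') (lam : O') hlamO'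
    rwa [map_natCast] at h
  have hfrob := hfrob_of_clause1 W hΔ hN0 hMN hg hgW lam
    ((algebraMap O' O'').comp
      (iota.comp (chigOf hg.1 (insert lam M.primeFactors)).rangeRestrict))
    (fun t n h => by
      rw [RingHom.comp_apply, iota_rangeRestrict_eq_intCast _ iota t n h, map_intCast]) ρ
    (fun ℓ hℓ hℓM hℓS A hA σ hσ => cl1 ℓ hℓ hℓM hℓS A hA σ hσ)
  obtain ⟨A, σ, hA, hσ⟩ := Fermat.Agent.Common_helper32.exists_isFrobeniusAt ℓ hℓ
  have h1 := L.charpoly_frob ρ (avoid W N M lam) hfrob hlamO'' ℓ hℓ hlamℓ.symm hgood A hA σ hσ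
  have h2 := cl1 ℓ hℓ hℓM hℓS A hA σ hσ
  have h3 := congrArg (fun P : O''[X] => P.coeff 1) (h1.symm.trans h2)
  simp only [coeff_one_quadratic] at h3
  have h4 : algebraMap O' O''
      ((iota.comp (chigOf hg.1 (insert lam M.primeFactors)).rangeRestrict)
        (CuspForm.heckeAlgebra.T hℓ hℓM hℓS)) =
      algebraMap O' O'' (iota ((W.apOfModel ℓ : ℤ) :
        (chigOf hg.1 (insert lam M.primeFactors)).range)) := by
    rw [map_intCast, map_intCast]
    exact (neg_injective h3).symm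
  have h5 := hiota (hinj h4)
  have h6 := congrArg Subtype.val h5
  rw [← chigOf_T hg.1 _ ℓ hℓ hℓM hℓS]
  simpa using h6

end Main

/-! ### the gate of helper85 and the frozen statement -/

/-- **(LOW) + (VAL)** from the gates. -/
theorem lowValGate_of_gates (hS35 : S35Stmt) (hS36 : S36Core)
    (W : WeierstrassCurve ℤ) (hΔ : W.Δ ≠ 0)
    (hEC : ∀ (lam : ℕ) [Fact lam.Prime], lam ≠ 2 → Nonempty (ECLevels W lam))
    (N : ℕ) (hN0 : N ≠ 0) (hN3 : ∀ q : ℕ, q.Prime → ¬ q ^ 3 ∣ N) : LowValGate W N := by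
  intro M g hMN hg hgW
  have hM0 : M ≠ 0 := ne_zero_of_dvd_ne_zero hN0 hMN
  have : NeZero M := ⟨hM0⟩
  refine ⟨?_, fun ℓ hℓ hgood _ hℓM =>
    qCoeff_eq_of_good W hΔ hN0 hMN hg hgW hS35 hEC ℓ hℓ hgood hℓM⟩
  have hC0 : W.conductorLevel ≠ 0 := W.conductorLevel_pos.ne'
  rw [← Nat.factorization_le_iff_dvd hM0 hC0]
  intro q
  by_cases hq : q.Prime
  · by_cases hqM : q ∣ M
    · have hbadq : (q : ℤ) ∣ W.Δ := by
        by_contra h
        exact not_dvd_of_good W hΔ hN0 hMN hg hgW hS35 hS36 hEC hN3 q hq h hqM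
      have hqC : q ∣ W.conductorLevel := (W.prime_dvd_conductorLevel_iff hΔ hq).mpr hbadq
      have h1 : 1 ≤ W.conductorLevel.factorization q :=
        (hq.dvd_iff_one_le_factorization hC0).mp hqC
      have h3 : ¬ 3 ≤ M.factorization q := fun h =>
        hN3 q hq (((hq.pow_dvd_iff_le_factorization hM0).mpr h).trans hMN)
      have h4 := factorization_ne_two W hΔ hN0 hMN hg hgW hS36 hEC q hq
      omega
    · rw [Nat.factorization_eq_zero_of_not_dvd hqM]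
      exact Nat.zero_le _
  · rw [Nat.factorization_eq_zero_of_not_prime _ hq]
    exact Nat.zero_le _

/-- **The frozen statement S58 from the gates.**  (`hirr`, `hp2`, `hp2N` are not used.) -/
theorem s58_of_gates (hS35 : S35Stmt) (hS36 : S36Core)
    (hEC : ∀ W : WeierstrassCurve ℤ, W.Δ ≠ 0 → W.IsSemistableModel →
      ∀ (lam : ℕ) [Fact lam.Prime], lam ≠ 2 → Nonempty (ECLevels W lam))
    (W : WeierstrassCurve ℤ) (hss : W.IsSemistableModel) (N : ℕ)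
    (p : ℕ) [Fact p.Prime] (_hp2 : p ≠ 2) (_hirr : W.ModRepIsIrreducible p)
    (_hp2N : ¬ p ^ 2 ∣ N)
    (hN : W.IsModularModelOfLevel N) (hbad : ∀ ℓ : ℕ, ℓ.Prime → (ℓ : ℤ) ∣ W.Δ → ℓ ∣ N)
    (hN3 : ∀ q : ℕ, q.Prime → ¬ q ^ 3 ∣ N) :
    W.IsModularModelOfLevel W.conductorLevel :=
  s58_of_lowValGate W N hN hbad hN3
    (lowValGate_of_gates hS35 hS36 W (disc_ne_zero_of_bad_dvd W hbad (level_ne_zero hN3))
      (fun lam _ hlam2 => hEC W (disc_ne_zero_of_bad_dvd W hbad (level_ne_zero hN3)) hss lam hlam2)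
      N (level_ne_zero hN3) hN3)

end Fermat.Agent.GE.Top.S58Top
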