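/-
GATE-L / S58-TOP, last bridge (helper27): **the frozen statement S58 from the THREE final gates**

  `s58_of_geom : S35Gate → S36GeomGate → ECGate → frozen S58`

* `S35Gate`     = helper17/helper82's gate of S35 (`GK/Tate/S35Final.lean`);
* `S36GeomGate` = the Hecke-free geometric gate of S36 (`GL/Final/S36OfGeom.lean`, helper64/helper24);
* `ECGate`      = the output of the elliptic-curve package: for every semistable `W/ℤ` with `Δ ≠ 0`
  and every odd prime `lam`, `Nonempty (ECLevels W lam)` (helper53's `ECAssembly.nonempty_ecLevels`).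

The only new content is `s36GateNE_of_geom : S36GeomGate → S36GateNE`: helper24's
`inv36Gate_of_geom` never uses `hres`, so the "non-Eisenstein" hypothesis of `S36GateNE` is simply
dropped.
-/
import Fermat.Agent.GE.Top.S58Top
import Fermat.Agent.GL.Final.S36OfGeom

set_option autoImplicit false
set_option linter.overlappingInstances false

open CuspForm Polynomial ModularFormClass CongruenceSubgroup

namespace Fermat.Agent.GE.Top.S58OfGeom

open Fermat.Agent.GE.Top Fermat.Agent.GE.Top.S58Top
open Fermat.Agent.GK.S36.S36Final Fermat.Agent.GL.Final Fermat.Agent.GL.Hecke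

/-- the geometric gate implies the CLEAN (`hres`-free, "non-Eisenstein") Tate-side gate of S36 -/
theorem s36GateNE_of_geom (hG : S36GeomGate) : S36GateNE := by
  intro M _ g hg lam _ S hlam2 chig hchig hlamS hMS _ q hq hqlam hq2
  obtain ⟨N', hN', hN'M, hne, P, hP, C, hC, hgeom⟩ := hG M lam q hq hqlam hlam2 hq2
  exact inv36Gate_of_geom hN'M hne hg lam S chig hchig hlamS hMS q P hP C hC hgeom

/-- the `hres`-free core of S36 from the geometric gate -/
theorem s36Core_of_geom (hG : S36GeomGate) : S36Core :=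
  s36Core_of_gateNE (s36GateNE_of_geom hG)

/-- **the elliptic-curve gate** of S58 (output contract of the EC package). -/
def ECGate : Prop :=
  ∀ W : WeierstrassCurve ℤ, W.Δ ≠ 0 → W.IsSemistableModel →
    ∀ (lam : ℕ) [Fact lam.Prime], lam ≠ 2 → Nonempty (ECLevels W lam)

/-- **The frozen statement S58 from the three final gates.** -/
theorem s58_of_geom (h35 : Fermat.Agent.GK.Tate.S35Final.S35Gate) (h36 : S36GeomGate)
    (hEC : ECGate)
    (W : WeierstrassCurve ℤ) (hss : W.IsSemistableModel) (N : ℕ)
    (p : ℕ) [Fact p.Prime] (hp2 : p ≠ 2) (hirr : W.ModRepIsIrreducible p)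
    (hp2N : ¬ p ^ 2 ∣ N)
    (hN : W.IsModularModelOfLevel N) (hbad : ∀ ℓ : ℕ, ℓ.Prime → (ℓ : ℤ) ∣ W.Δ → ℓ ∣ N)
    (hN3 : ∀ q : ℕ, q.Prime → ¬ q ^ 3 ∣ N) :
    W.IsModularModelOfLevel W.conductorLevel :=
  s58_of_gates (s35Stmt_of_gate h35) (s36Core_of_geom h36) hEC W hss N p hp2 hirr hp2N hN hbad hN3

end Fermat.Agent.GE.Top.S58OfGeom
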