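/-
GATE-L / S58-TOP, final form (helper27): **the frozen statement S58 from the TWO modular gates**

  `s58_of_two : S35Gate → S36GeomGate → frozen S58`

The elliptic-curve gate is discharged by helper53's `GE/Top/ECFinal.hEC` (EC package:
helper91 E2/E5, helper55 E6, helper4 EC-UNIP, helper73 EC-TORS, helper53 EC-ASSEMBLY, helper70/
helper10/helper68 count + degree form).  `Fermat/Agent/S58.lean` is then
`s58_of_two ‹S35Gate› ‹S36GeomGate› W hss N p hp2 hirr hp2N hN hbad hN3`.

NOTE: this file imports the CANONICAL `GE/Top/ECFinal.lean` (helper53, ns `Fermat.Agent.GE.ECFinal`);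
helper91's twin `GE/ECFinal.lean` lives in ns `Fermat.Agent.GE.ECFinalTwin` (dedup ruling 2883).
-/
import Fermat.Agent.GE.Top.S58OfGeom
import Fermat.Agent.GE.Top.ECFinal

set_option autoImplicit false
set_option linter.overlappingInstances false

namespace Fermat.Agent.GE.Top.S58Two

open Fermat.Agent.GE.Top.S58OfGeom

/-- the elliptic-curve gate of S58 is a theorem -/
theorem ecGate : ECGate :=
  Fermat.Agent.GE.ECFinal.hEC

/-- **The frozen statement S58 from the two modular gates** (S35: GATE-K, S36: GATE-L). -/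
theorem s58_of_two (h35 : Fermat.Agent.GK.Tate.S35Final.S35Gate)
    (h36 : Fermat.Agent.GL.Final.S36GeomGate)
    (W : WeierstrassCurve ℤ) (hss : W.IsSemistableModel) (N : ℕ)
    (p : ℕ) [Fact p.Prime] (hp2 : p ≠ 2) (hirr : W.ModRepIsIrreducible p)
    (hp2N : ¬ p ^ 2 ∣ N)
    (hN : W.IsModularModelOfLevel N) (hbad : ∀ ℓ : ℕ, ℓ.Prime → (ℓ : ℤ) ∣ W.Δ → ℓ ∣ N)
    (hN3 : ∀ q : ℕ, q.Prime → ¬ q ^ 3 ∣ N) :
    W.IsModularModelOfLevel W.conductorLevel :=
  s58_of_geom h35 h36 ecGate W hss N p hp2 hirr hp2N hN hbad hN3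

end Fermat.Agent.GE.Top.S58Two
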