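/-
GATE-L / S58-TOP, last form (helper27): **the frozen statement S58 from the geometric gate of S36
ALONE**

  `s58_of_geomGate : S36GeomGate → frozen S58`

GATE-K is closed: `S35Gate` is a theorem (helper44 `GK/SS/ModularG1.s35Gate_of_fibreFacts` on
helper56's `GK/SS/FibreFactsProof.fibreFacts`).  `Fermat/Agent/S58.lean` is then
`s58_of_geomGate ‹S36GeomGate› W hss N p hp2 hirr hp2N hN hbad hN3`.
-/
import Fermat.Agent.GE.Top.S58Two
import Fermat.Agent.GK.SS.ModularG1
import Fermat.Agent.GK.SS.FibreFactsProof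

set_option autoImplicit false
set_option linter.overlappingInstances false

namespace Fermat.Agent.GE.Top.S58One

/-- **GATE-K**: the gate of S35 is a theorem. -/
theorem s35GateThm : Fermat.Agent.GK.Tate.S35Final.S35Gate :=
  Fermat.Agent.GK.SS.Modular.s35Gate_of_fibreFacts Fermat.Agent.GK.SS.Modular.fibreFacts

/-- **The frozen statement S58 from the geometric gate of S36 alone.** -/
theorem s58_of_geomGate (h36 : Fermat.Agent.GL.Final.S36GeomGate)
    (W : WeierstrassCurve ℤ) (hss : W.IsSemistableModel) (N : ℕ)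
    (p : ℕ) [Fact p.Prime] (hp2 : p ≠ 2) (hirr : W.ModRepIsIrreducible p)
    (hp2N : ¬ p ^ 2 ∣ N)
    (hN : W.IsModularModelOfLevel N) (hbad : ∀ ℓ : ℕ, ℓ.Prime → (ℓ : ℤ) ∣ W.Δ → ℓ ∣ N)
    (hN3 : ∀ q : ℕ, q.Prime → ¬ q ^ 3 ∣ N) :
    W.IsModularModelOfLevel W.conductorLevel :=
  Fermat.Agent.GE.Top.S58Two.s58_of_two s35GateThm h36 W hss N p hp2 hirr hp2N hN hbad hN3

end Fermat.Agent.GE.Top.S58One
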