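/-
S59 PRE-WORK / GATE-E TOP, second layer (helper33): **the lifting contract `LiftStmt p` from three
nodes.**  Prelude-only file (seconds to build); every node enters as a `…Stmt : Prop` binder.

* `PointEigenStmt` (E10 EIGEN): a point `χ : 𝕋_S(N) →+* D` (`D` a char-0 domain) of a frozen Hecke
  algebra comes from a normalised eigenform of level `N` (Deligne–Serre + multiplicity one).
  It is (a weakening of) the TYPE of `Fermat.Agent.GB.B7.exists_eigenform_of_point_set`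
  (helper83, on main).
* `RaiseStmt` (GE-STAB): an eigenform of level `M` gives an eigenform of level `N'` (`M ∣ N'`) with
  the same `a_ℓ` away from `N'/M`.  It is the TYPE of
  `Fermat.Agent.GE.Stab.exists_eigenform_of_dvd` (on main).
* `ModPointStmt p` (**the engine output, E6–E9**): for `W` as in frozen S59 there are levels
  `N ∣ N'`, a set `S` of primes all dividing `N'`, and a point `χ` of `𝕋_S(N)` in a char-0 domain
  with `χ(T_ℓ) = a_ℓ(W)` (`ℓ ∤ N`, `ℓ ∉ S`, `ℓ` good); `N'` is admissible (`p² ∤ N'`, cube-free,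
  divisible by the bad primes).
* `liftStmt_of_nodes : ModPointStmt p → PointEigenStmt → RaiseStmt → LiftStmt p`.
* `ModPointStmtP p` / `modPointStmt_of_P`: the usual special case `S ⊆ {ℓ ∣ N} ∪ {p}`, with
  `N' := N` or `N·p`.

Key remark: frozen `IsModularModelOfLevel N'` only asks `a_ℓ(f) = a_ℓ(W)` at GOOD `ℓ ∤ N'`, so once
`p ∣ N'` nothing is required at `ℓ = p` – no `T_p`/`U_p` bookkeeping survives to the top.
-/
import Fermat.Agent.GE.Top.S59Top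
import Fermat.Prelude.Def_CuspForm_HeckeAlgebra

set_option autoImplicit false

open WeierstrassCurve CuspForm ModularFormClass CongruenceSubgroup

namespace Fermat.Agent.GE.Top.S59Nodes

open Fermat.Agent.GE.Top.S59Top

universe u

/-- **E10 EIGEN** (weakening of the type of helper83's `exists_eigenform_of_point_set`). -/
def PointEigenStmt : Prop :=
  ∀ (N : ℕ) [NeZero N] (S : Set ℕ) (D : Type u) [CommRing D] [IsDomain D] [CharZero D]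
    (χ : ↥(heckeAlgebra N 2 S) →+* D),
    ∃ ι : ↥χ.range →+* ℂ, Function.Injective ι ∧
      ∃ G : CuspForm (Gamma0 N) 2, G.IsNormalizedEigenform ∧
        ∀ (ℓ : ℕ) (hℓ : ℓ.Prime) (hℓN : ¬ ℓ ∣ N) (hℓS : ℓ ∉ S),
          qCoeff G ℓ = ι (χ.rangeRestrict (heckeAlgebra.T hℓ hℓN hℓS))

/-- **GE-STAB RAISE** (the type of `Fermat.Agent.GE.Stab.exists_eigenform_of_dvd`). -/
def RaiseStmt : Prop :=
  ∀ {M N' : ℕ} (_ : M ∣ N') (_ : N' ≠ 0) {g : CuspForm (Gamma0 M) 2} (_ : g.IsNormalizedEigenform),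
    ∃ g' : CuspForm (Gamma0 N') 2, g'.IsNormalizedEigenform ∧
      ∀ ℓ : ℕ, ℓ.Prime → ¬ ℓ ∣ N' / M → qCoeff g' ℓ = qCoeff g ℓ

/-- **the engine output (E6–E9)**: a char-0 point of a Hecke algebra with the eigenvalues of `W`. -/
def ModPointStmt (p : ℕ) : Prop :=
  ∀ (W : WeierstrassCurve ℤ), W.Δ ≠ 0 → W.IsSemistableModel → W.ModRepIsIrreducible p →
    ∀ (M₀ : ℕ) [NeZero M₀], W.IsResiduallyModularOfLevel p M₀ → ¬ p ^ 2 ∣ M₀ →
    (∀ q : ℕ, q.Prime → q ≠ p → ¬ q ^ 3 ∣ M₀) →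
    ∃ (N N' : ℕ) (_ : NeZero N) (S : Set ℕ) (D : Type u) (_ : CommRing D) (_ : IsDomain D)
      (_ : CharZero D) (χ : ↥(heckeAlgebra N 2 S) →+* D),
      N ∣ N' ∧ N' ≠ 0 ∧ ¬ p ^ 2 ∣ N' ∧ (∀ q : ℕ, q.Prime → ¬ q ^ 3 ∣ N') ∧
      (∀ ℓ : ℕ, ℓ.Prime → (ℓ : ℤ) ∣ W.Δ → ℓ ∣ N') ∧
      (∀ ℓ ∈ S, ℓ.Prime → ℓ ∣ N') ∧
      ∀ (ℓ : ℕ) (hℓ : ℓ.Prime) (hℓN : ¬ ℓ ∣ N) (hℓS : ℓ ∉ S), W.IsGoodPrimeFor ℓ →
        χ (heckeAlgebra.T hℓ hℓN hℓS) = ((W.apOfModel ℓ : ℤ) : D)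

/-- **`LiftStmt p` from the three nodes.** -/
theorem liftStmt_of_nodes (p : ℕ) (hE : ModPointStmt.{u} p) (hP : PointEigenStmt.{u})
    (hR : RaiseStmt) : LiftStmt p := by
  intro W hΔ hW hirr M₀ _ hres hM₀ hM₀3
  obtain ⟨N, N', hNZ, S, D, iC, iD, iZ, χ, hNN', hN'0, hp2, hcube, hbad, hS, hχ⟩ :=
    hE W hΔ hW hirr M₀ hres hM₀ hM₀3
  obtain ⟨ι, -, G, hG, hGℓ⟩ := hP N S D χ
  obtain ⟨g', hg', hg'ℓ⟩ := hR hNN' hN'0 hG
  refine ⟨N', ⟨g', hg', ?_⟩, hp2, hcube, hbad⟩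
  intro ℓ hℓ hgood hℓN'
  have hℓN : ¬ ℓ ∣ N := fun h => hℓN' (h.trans hNN')
  have hℓS : ℓ ∉ S := fun h => hℓN' (hS ℓ h hℓ)
  have hℓd : ¬ ℓ ∣ N' / N := fun h => hℓN' (h.trans (Nat.div_dvd_of_dvd hNN'))
  rw [hg'ℓ ℓ hℓ hℓd, hGℓ ℓ hℓ hℓN hℓS]
  have h1 : χ.rangeRestrict (heckeAlgebra.T hℓ hℓN hℓS) = ((W.apOfModel ℓ : ℤ) : ↥χ.range) := by
    apply Subtype.ext
    rw [RingHom.coe_rangeRestrict, hχ ℓ hℓ hℓN hℓS hgood]
    simp
  rw [h1, map_intCast]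

/-- the usual special case of the engine output: one level `N` (not nec. divisible by `p`), and
`S` inside `{ℓ ∣ N} ∪ {p}`. -/
def ModPointStmtP (p : ℕ) : Prop :=
  ∀ (W : WeierstrassCurve ℤ), W.Δ ≠ 0 → W.IsSemistableModel → W.ModRepIsIrreducible p →
    ∀ (M₀ : ℕ) [NeZero M₀], W.IsResiduallyModularOfLevel p M₀ → ¬ p ^ 2 ∣ M₀ →
    (∀ q : ℕ, q.Prime → q ≠ p → ¬ q ^ 3 ∣ M₀) →
    ∃ (N : ℕ) (_ : NeZero N) (S : Set ℕ) (D : Type u) (_ : CommRing D) (_ : IsDomain D)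
      (_ : CharZero D) (χ : ↥(heckeAlgebra N 2 S) →+* D),
      ¬ p ^ 2 ∣ N ∧ (∀ q : ℕ, q.Prime → ¬ q ^ 3 ∣ N) ∧
      (∀ ℓ : ℕ, ℓ.Prime → (ℓ : ℤ) ∣ W.Δ → ℓ ∣ N) ∧
      (∀ ℓ ∈ S, ℓ.Prime → ℓ ∣ N ∨ ℓ = p) ∧
      ∀ (ℓ : ℕ) (hℓ : ℓ.Prime) (hℓN : ¬ ℓ ∣ N) (hℓS : ℓ ∉ S), W.IsGoodPrimeFor ℓ →
        χ (heckeAlgebra.T hℓ hℓN hℓS) = ((W.apOfModel ℓ : ℤ) : D)

/-- `N' := N` if `p ∣ N`, `N' := N·p` otherwise. -/
theorem modPointStmt_of_P (p : ℕ) (hp : p.Prime) (h : ModPointStmtP.{u} p) :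
    ModPointStmt.{u} p := by
  intro W hΔ hW hirr M₀ _ hres hM₀ hM₀3
  obtain ⟨N, hNZ, S, D, iC, iD, iZ, χ, hp2, hcube, hbad, hS, hχ⟩ :=
    h W hΔ hW hirr M₀ hres hM₀ hM₀3
  have hN0 : N ≠ 0 := NeZero.ne N
  by_cases hpN : p ∣ N
  · refine ⟨N, N, hNZ, S, D, iC, iD, iZ, χ, dvd_rfl, hN0, hp2, hcube, hbad, ?_, hχ⟩
    intro ℓ hℓS hℓ
    rcases hS ℓ hℓS hℓ with h1 | rfl
    · exact h1
    · exact hpN
  · refine ⟨N, N * p, hNZ, S, D, iC, iD, iZ, χ, dvd_mul_right N p, mul_ne_zero hN0 hp.ne_zero,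
      ?_, ?_, ?_, ?_, hχ⟩
    · intro h2
      rw [pow_two] at h2
      exact hpN (Nat.dvd_of_mul_dvd_mul_right hp.pos h2)
    · intro q hq h3
      by_cases hqp : q = p
      · subst hqp
        apply hpN
        have h4 : q * q ^ 2 ∣ q * N := by
          rw [mul_comm q N]
          calc q * q ^ 2 = q ^ 3 := by ring
            _ ∣ N * q := h3
        exact (dvd_pow_self q two_ne_zero).trans (Nat.dvd_of_mul_dvd_mul_left hq.pos h4)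
      · have hcop : Nat.Coprime (q ^ 3) p :=
          Nat.Coprime.pow_left 3 ((Nat.coprime_primes hq hp).2 hqp)
        exact hcube q hq (hcop.dvd_of_dvd_mul_right h3)
    · intro ℓ hℓ hℓΔ
      exact (hbad ℓ hℓ hℓΔ).trans (dvd_mul_right N p)
    · intro ℓ hℓS hℓ
      rcases hS ℓ hℓS hℓ with h1 | rfl
      · exact h1.trans (dvd_mul_right N p)
      · exact dvd_mul_left _ _

/-- **`LiftStmt p` from the three nodes**, engine output in the special form. -/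
theorem liftStmt_of_nodesP (p : ℕ) (hp : p.Prime) (hE : ModPointStmtP.{u} p)
    (hP : PointEigenStmt.{u}) (hR : RaiseStmt) : LiftStmt p :=
  liftStmt_of_nodes p (modPointStmt_of_P p hp hE) hP hR

/-- **frozen S59 from S58 and the three nodes** (`S59Top.s59_of_lift` composed). -/
theorem s59_of_nodes (h58 : S58Stmt) (p : ℕ) (hp : p = 3 ∨ p = 5) (hE : ModPointStmt.{u} p)
    (hP : PointEigenStmt.{u}) (hR : RaiseStmt)
    (W : WeierstrassCurve ℤ) (hΔ : W.Δ ≠ 0) (hW : W.IsSemistableModel)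
    (hirr : W.ModRepIsIrreducible p)
    (M₀ : ℕ) [NeZero M₀] (hres₀ : W.IsResiduallyModularOfLevel p M₀)
    (hM₀ : ¬ p ^ 2 ∣ M₀)
    (hM₀3 : ∀ q : ℕ, q.Prime → q ≠ p → ¬ q ^ 3 ∣ M₀) :
    Mlc1IsModularModelOfExactConductorLevel W :=
  s59_of_lift h58 p hp (liftStmt_of_nodes p hE hP hR) W hΔ hW hirr M₀ hres₀ hM₀ hM₀3

end Fermat.Agent.GE.Top.S59Nodes
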