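/-
S59 PRE-WORK / GATE-E TOP (helper33): **the engine output, relaxed at `p`.**  Prelude-only.

`ModPointStmtQ p` is `S59Nodes.ModPointStmtP p` with NOTHING asked at the prime `p` itself:
* the bad primes `ℓ ≠ p` divide `N` (a bad `p` need not divide `N`);
* `χ(T_ℓ) = a_ℓ(W)` only at `ℓ ≠ p`.
This is exactly what `R = T` + the `p`-adic Tate module give (`charpoly ρ(Frob_ℓ)` is only known at
`ℓ ≠ p`).  `modPointStmt_of_Q` : replace `S` by `S ∪ {p}` (the Hecke algebra shrinks) and take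
`N' := N` or `N·p`.
-/
import Fermat.Agent.GE.Top.S59Nodes

set_option autoImplicit false

open WeierstrassCurve CuspForm ModularFormClass CongruenceSubgroup

namespace Fermat.Agent.GE.Top.S59NodesQ

open Fermat.Agent.GE.Top.S59Top Fermat.Agent.GE.Top.S59Nodes

universe u

/-- the conclusion of `ModPointStmtQ` for one curve. -/
def ModPointQ (p : ℕ) (W : WeierstrassCurve ℤ) : Prop :=
  ∃ (N : ℕ) (_ : NeZero N) (S : Set ℕ) (D : Type u) (_ : CommRing D) (_ : IsDomain D)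
    (_ : CharZero D) (χ : ↥(heckeAlgebra N 2 S) →+* D),
    ¬ p ^ 2 ∣ N ∧ (∀ q : ℕ, q.Prime → ¬ q ^ 3 ∣ N) ∧
    (∀ ℓ : ℕ, ℓ.Prime → (ℓ : ℤ) ∣ W.Δ → ℓ ≠ p → ℓ ∣ N) ∧
    (∀ ℓ ∈ S, ℓ.Prime → ℓ ∣ N ∨ ℓ = p) ∧
    ∀ (ℓ : ℕ) (hℓ : ℓ.Prime) (hℓN : ¬ ℓ ∣ N) (hℓS : ℓ ∉ S), ℓ ≠ p → W.IsGoodPrimeFor ℓ →
      χ (heckeAlgebra.T hℓ hℓN hℓS) = ((W.apOfModel ℓ : ℤ) : D)

/-- **the engine output, relaxed at `p`.** -/
def ModPointStmtQ (p : ℕ) : Prop :=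
  ∀ (W : WeierstrassCurve ℤ), W.Δ ≠ 0 → W.IsSemistableModel → W.ModRepIsIrreducible p →
    ∀ (M₀ : ℕ) [NeZero M₀], W.IsResiduallyModularOfLevel p M₀ → ¬ p ^ 2 ∣ M₀ →
    (∀ q : ℕ, q.Prime → q ≠ p → ¬ q ^ 3 ∣ M₀) → ModPointQ.{u} p W

/-- arithmetic of `N' := N·p` for `p ∤ N`. -/
theorem not_sq_dvd_mul {p N : ℕ} (hp : p.Prime) (hpN : ¬ p ∣ N) : ¬ p ^ 2 ∣ N * p := by
  intro h2
  rw [pow_two] at h2
  exact hpN (Nat.dvd_of_mul_dvd_mul_right hp.pos h2)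

theorem cubefree_mul {p N : ℕ} (hp : p.Prime) (hpN : ¬ p ∣ N)
    (hcube : ∀ q : ℕ, q.Prime → ¬ q ^ 3 ∣ N) : ∀ q : ℕ, q.Prime → ¬ q ^ 3 ∣ N * p := by
  intro q hq h3
  by_cases hqp : q = p
  · subst hqp
    apply hpN
    have h4 : q * q ^ 2 ∣ q * N := by
      rw [mul_comm q N]
      calc q * q ^ 2 = q ^ 3 := by ring
        _ ∣ N * q := h3
    exact (dvd_pow_self q two_ne_zero).trans (Nat.dvd_of_mul_dvd_mul_left hq.pos h4)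
  · have hcop : Nat.Coprime (q ^ 3) p :=
      Nat.Coprime.pow_left 3 ((Nat.coprime_primes hq hp).2 hqp)
    exact hcube q hq (hcop.dvd_of_dvd_mul_right h3)

/-- **`ModPointStmt p` from the relaxed engine output.** -/
theorem modPointStmt_of_Q (p : ℕ) (hp : p.Prime) (h : ModPointStmtQ.{u} p) :
    ModPointStmt.{u} p := by
  intro W hΔ hW hirr M₀ _ hres hM₀ hM₀3
  obtain ⟨N, hNZ, S, D, iC, iD, iZ, χ, hp2, hcube, hbad, hS, hχ⟩ :=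
    h W hΔ hW hirr M₀ hres hM₀ hM₀3
  have hN0 : N ≠ 0 := NeZero.ne N
  -- shrink the Hecke algebra: `S' := S ∪ {p}`
  have hle : heckeAlgebra N 2 (S ∪ {p}) ≤ heckeAlgebra N 2 S :=
    heckeAlgebra_mono Set.subset_union_left
  let χ' : ↥(heckeAlgebra N 2 (S ∪ {p})) →+* D :=
    χ.comp (Subalgebra.inclusion hle : ↥(heckeAlgebra N 2 (S ∪ {p})) →+* ↥(heckeAlgebra N 2 S))
  have hχ' : ∀ (ℓ : ℕ) (hℓ : ℓ.Prime) (hℓN : ¬ ℓ ∣ N) (hℓS : ℓ ∉ S ∪ {p}), W.IsGoodPrimeFor ℓ →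
      χ' (heckeAlgebra.T hℓ hℓN hℓS) = ((W.apOfModel ℓ : ℤ) : D) := by
    intro ℓ hℓ hℓN hℓS hgood
    have hℓS0 : ℓ ∉ S := fun h0 => hℓS (Or.inl h0)
    have hℓp : ℓ ≠ p := fun h0 => hℓS (Or.inr h0)
    have : χ' (heckeAlgebra.T hℓ hℓN hℓS) = χ (heckeAlgebra.T hℓ hℓN hℓS0) := rfl
    rw [this]
    exact hχ ℓ hℓ hℓN hℓS0 hℓp hgood
  have hS' : ∀ (N' : ℕ), N ∣ N' → p ∣ N' → ∀ ℓ ∈ S ∪ {p}, ℓ.Prime → ℓ ∣ N' := by
    intro N' hNN' hpN' ℓ hℓS hℓ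
    rcases hℓS with h1 | h1
    · rcases hS ℓ h1 hℓ with h2 | h2
      · exact h2.trans hNN'
      · rw [h2]; exact hpN'
    · rw [Set.mem_singleton_iff.mp h1]; exact hpN'
  have hbad' : ∀ (N' : ℕ), N ∣ N' → p ∣ N' → ∀ ℓ : ℕ, ℓ.Prime → (ℓ : ℤ) ∣ W.Δ → ℓ ∣ N' := by
    intro N' hNN' hpN' ℓ hℓ hℓΔ
    by_cases hℓp : ℓ = p
    · rw [hℓp]; exact hpN'
    · exact (hbad ℓ hℓ hℓΔ hℓp).trans hNN'
  by_cases hpN : p ∣ N
  · exact ⟨N, N, hNZ, S ∪ {p}, D, iC, iD, iZ, χ', dvd_rfl, hN0, hp2, hcube,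
      hbad' N dvd_rfl hpN, hS' N dvd_rfl hpN, hχ'⟩
  · exact ⟨N, N * p, hNZ, S ∪ {p}, D, iC, iD, iZ, χ', dvd_mul_right N p,
      mul_ne_zero hN0 hp.ne_zero, not_sq_dvd_mul hp hpN, cubefree_mul hp hpN hcube,
      hbad' (N * p) (dvd_mul_right N p) (dvd_mul_left p N),
      hS' (N * p) (dvd_mul_right N p) (dvd_mul_left p N), hχ'⟩

/-- **`LiftStmt p` from the relaxed engine output** and the two nodes that are on main. -/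
theorem liftStmt_of_Q (p : ℕ) (hp : p.Prime) (hE : ModPointStmtQ.{u} p)
    (hP : PointEigenStmt.{u}) (hR : RaiseStmt) : LiftStmt p :=
  liftStmt_of_nodes p (modPointStmt_of_Q p hp hE) hP hR

end Fermat.Agent.GE.Top.S59NodesQ
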