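/-
S59 PRE-WORK / GATE-E TOP, fourth layer (helper33): **`LiftStmt p` from the ENGINE CONTRACT alone**
(helper10 `GE/Graph/RTStmtW`: `RTStmtFL p`, `RTStmtSO p`), E7 DICT(W) being closed binder-free
(helper17 `GE7/DictW/DictFinal`, helper64 `GE7/TateAbs/ResidualW`).

  `ρ := rhoWO W p 𝒪 hΔ = T_p(W) ⊗ 𝒪` is of type `condFL / condSO 𝒪 p Smin Σ` (DictFinal), its
  residual representation is `ρ̄_{W,p} ⊗ k` (ResidualW), hence `RTData.exists_point` gives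
  `χ : 𝕋_S(N) → 𝒪` with `charpoly ρ(Frob_ℓ) = X² − χ(T_ℓ) X + ℓ`, and `eq_ap_of_charpoly` gives
  `χ(T_ℓ) = a_ℓ(W)` at `ℓ ≠ p`.

* `modPointQ_of_rtConcl` : one case (`cond = condFL` or `condSO`);
* `modPointStmtQ_of_rt   : RTStmtFL p → RTStmtSO p → ModPointStmtQ p` (`p ≠ 2`);
* `liftStmt_of_rt`       : … → PointEigenStmt → RaiseStmt → LiftStmt p;
* `s59_of_rt`            : frozen S59 from `S58Stmt`, `RTStmtFL p`, `RTStmtSO p`, `PointEigenStmt`,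
                           `RaiseStmt`.
-/
import Fermat.Agent.GE.Top.S59NodesQ
import Fermat.Agent.GE.Graph.RTStmtW
import Fermat.Agent.GE7.DictW.DictFinal
import Fermat.Agent.GE7.TateAbs.ResidualW
import Fermat.Agent.Lib.FrobeniusExists

set_option autoImplicit false

open scoped WeierstrassCurve.Affine
open Polynomial IsLocalRing CuspForm WeierstrassCurve PadicInt

namespace Fermat.Agent.GE.Top.S59Engine

open Fermat.Agent.GE.Top.S59Top Fermat.Agent.GE.Top.S59Nodes Fermat.Agent.GE.Top.S59NodesQ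
  Fermat.Agent.GE.Graph Fermat.Agent.GE7.DictW.Inst Fermat.Agent.GE7.DictW.Dict
  Fermat.Agent.GE7.DictW.DictPlug Fermat.Agent.GE7.DictW.DictFinal Fermat.Agent.GE.ECAssembly

/-- `ρ.baseChange k'` is `ρ.baseChangeAlong (algebraMap k k')`. -/
theorem baseChange_eq_baseChangeAlong {k k' : Type} [Field k] [Field k'] [inst : Algebra k k']
    (ρ : ResidualGaloisRep k) : ρ.baseChange k' = ρ.baseChangeAlong (algebraMap k k') := by
  have key : ∀ (i₁ i₂ : Algebra k k'), i₁ = i₂ →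
      @ResidualGaloisRep.baseChange k _ k' _ i₁ ρ = @ResidualGaloisRep.baseChange k _ k' _ i₂ ρ := by
    rintro _ _ rfl
    rfl
  exact key inst (algebraMap k k').toAlgebra (Algebra.algebra_ext _ _ fun _ => rfl)

/-- the cardinality input of the frozen `residualGaloisRepOf`. -/
theorem hcard_p (W : WeierstrassCurve ℤ) (hΔ : W.Δ ≠ 0) (p : ℕ) [hp : Fact p.Prime] :
    Nat.card (Submodule.torsionBy ℤ
      ((W.map (Int.castRingHom ℚ))⁄(AlgebraicClosure ℚ)).Point p) = p ^ 2 :=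
  card_torsionBy_p hΔ

/-- the finite-level input of the frozen `residualGaloisRepOf`. -/
theorem hker_p (W : WeierstrassCurve ℤ) (hΔ : W.Δ ≠ 0) (p : ℕ) [hp : Fact p.Prime] :
    GaloisFactorsThroughFiniteLevel
      (WeierstrassCurve.Affine.Point.galoisRepModuleEnd (K := AlgebraicClosure ℚ) ℚ
        (W.map (Int.castRingHom ℚ)) p) := by
  obtain ⟨L, hL, hfix⟩ := galEnd_level W hΔ p hp.out.one_le
  refine ⟨L, hL, fun σ hσ => ?_⟩
  have h := hfix σ hσ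
  refine LinearMap.ext fun x => ?_
  have h2 := congrArg (fun f => f x) h
  exact h2

/-- one case of the engine: from `RTConcl` and the dictionary clause `hcond` to the point. -/
theorem modPointQ_of_rtConcl (p : ℕ) [hp : Fact p.Prime] (W : WeierstrassCurve ℤ) (hΔ : W.Δ ≠ 0)
    (hirr : W.ModRepIsIrreducible p)
    (cond : ∀ (𝒪 : Type) [CommRing 𝒪], ℕ → Finset ℕ → Finset ℕ → DefCondE 𝒪)
    (hcond : ∀ (𝒪 : Type) [CommRing 𝒪] [IsLocalRing 𝒪] [Algebra ℤ_[p] 𝒪]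
      [IsLocalHom (algebraMap ℤ_[p] 𝒪)] (_ : Finite (ResidueField 𝒪)) (Smin Sig : Finset ℕ),
      p ∈ Smin → (∀ q : ℕ, q ∈ Sig ↔ q.Prime ∧ (q : ℤ) ∣ W.Δ ∧ q ∉ Smin) →
      cond 𝒪 p Smin Sig (rhoWO W p 𝒪 hΔ))
    (h : RTConcl p W (hcard_p W hΔ p) (hker_p W hΔ p) cond) : ModPointQ.{0} p W := by
  obtain ⟨𝒪, iC, iD, iV, iA, iF, iZ, iAlg, iLoc, iK, Smin, Sig, hpS, hSminP, hmin, hSig, X', hp2,
    hcube, hlev, hS⟩ := h
  -- the deformation `ρ_{W,𝒪}`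
  have h𝒟 := hcond 𝒪 iF Smin Sig hpS hSig
  have hres : (rhoWO W p 𝒪 hΔ).residual.IsEquiv
      (((((W.map (Int.castRingHom ℚ)).residualGaloisRepOf p (hcard_p W hΔ p)
        (hker_p W hΔ p)).baseChange (ResidueField 𝒪))).baseChangeAlong
          (ResidueField.map (algebraMap 𝒪 𝒪))) := by
    rw [baseChange_eq_baseChangeAlong]
    exact Fermat.Agent.GE7.TateAbs.residual_baseChangeAlong_tateRepW_isEquiv_tower
      (hcard_p W hΔ p) (hker_p W hΔ p) (card_lvl W p hΔ) (levelFinite W p hΔ)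
      (algebraMap (ZMod p) (ResidueField 𝒪)) (algebraMap ℤ_[p] 𝒪) iLoc
  obtain ⟨χ, hχ⟩ := X'.exists_point (rhoWO W p 𝒪 hΔ) h𝒟 hres
  refine ⟨X'.N, X'.neN, X'.S, 𝒪, iC, iD, iZ, χ, hp2, hcube, ?_, hS, ?_⟩
  · intro ℓ hℓ hℓΔ hℓp
    refine hlev ℓ ?_ hℓp
    rw [Finset.mem_union]
    by_cases hm : ℓ ∈ Smin
    · exact Or.inl hm
    · exact Or.inr ((hSig ℓ).mpr ⟨hℓ, hℓΔ, hm⟩)
  · intro ℓ hℓ hℓN hℓS hℓp hgood
    obtain ⟨A, hA, σ, hσ⟩ := Fermat.Agent.Lib.Frob.exists_valuationSubring_isFrobeniusAt hℓ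
    exact eq_ap_of_charpoly hΔ hirr hℓ hℓp hgood A hA σ hσ _ (hχ ℓ hℓ hℓN hℓS A hA σ hσ)

/-- **the relaxed engine output from the engine contract** (E7 consumed). -/
theorem modPointStmtQ_of_rt (p : ℕ) [hp : Fact p.Prime] (hp2 : p ≠ 2) (hFL : RTStmtFL p)
    (hSO : RTStmtSO p) : ModPointStmtQ.{0} p := by
  intro W hΔ hW hirr M₀ _ hres hM₀ hM₀3
  by_cases hgood : W.IsGoodPrimeFor p
  · exact modPointQ_of_rtConcl p W hΔ hirr (fun 𝒪 _ => condFL 𝒪)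
      (fun 𝒪 _ _ _ _ h𝒪 Smin Sig hpS hSig =>
        condFL_rhoWO_good hΔ hW hirr h𝒪 hp2 hgood hpS hSig)
      (hFL W hΔ hW hirr (hcard_p W hΔ p) (hker_p W hΔ p) M₀ hres hM₀ hM₀3 hgood)
  · have hpΔ : (p : ℤ) ∣ W.Δ := not_not.mp hgood
    exact modPointQ_of_rtConcl p W hΔ hirr (fun 𝒪 _ => condSO 𝒪)
      (fun 𝒪 _ _ _ _ _ Smin Sig hpS hSig => condSO_rhoWO_mult hΔ hW hirr hpΔ hpS hSig)
      (hSO W hΔ hW hirr (hcard_p W hΔ p) (hker_p W hΔ p) M₀ hres hM₀ hM₀3 hpΔ)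

/-- **`LiftStmt p` from the engine contract** and the two nodes that are on main. -/
theorem liftStmt_of_rt (p : ℕ) [hp : Fact p.Prime] (hp2 : p ≠ 2) (hFL : RTStmtFL p)
    (hSO : RTStmtSO p) (hP : PointEigenStmt.{0}) (hR : RaiseStmt) : LiftStmt p :=
  liftStmt_of_Q p hp.out (modPointStmtQ_of_rt p hp2 hFL hSO) hP hR

/-- **frozen S59 from S58, the engine contract at `p = 3, 5`, and the two nodes on main.** -/
theorem s59_of_rt (h58 : S58Stmt) (hP : PointEigenStmt.{0}) (hR : RaiseStmt)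
    (hFL : ∀ (p : ℕ) [Fact p.Prime], p = 3 ∨ p = 5 → RTStmtFL p)
    (hSO : ∀ (p : ℕ) [Fact p.Prime], p = 3 ∨ p = 5 → RTStmtSO p)
    (p : ℕ) (hp : p = 3 ∨ p = 5)
    (W : WeierstrassCurve ℤ) (hΔ : W.Δ ≠ 0) (hW : W.IsSemistableModel)
    (hirr : W.ModRepIsIrreducible p)
    (M₀ : ℕ) [NeZero M₀] (hres₀ : W.IsResiduallyModularOfLevel p M₀)
    (hM₀ : ¬ p ^ 2 ∣ M₀)
    (hM₀3 : ∀ q : ℕ, q.Prime → q ≠ p → ¬ q ^ 3 ∣ M₀) :
    Mlc1IsModularModelOfExactConductorLevel W := by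
  have hpp : p.Prime := by
    rcases hp with rfl | rfl
    · exact Nat.prime_three
    · exact Nat.prime_five
  have hp2 : p ≠ 2 := by
    rcases hp with rfl | rfl <;> decide
  have : Fact p.Prime := ⟨hpp⟩
  exact s59_of_lift h58 p hp (liftStmt_of_rt p hp2 (hFL p hp) (hSO p hp) hP hR)
    W hΔ hW hirr M₀ hres₀ hM₀ hM₀3

end Fermat.Agent.GE.Top.S59Engine
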