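/-
S59 PRE-WORK / GATE-E TOP, fifth layer (helper33): **frozen S59 from the ENGINE CONTRACT alone.**

The three `…Stmt` binders of `S59Engine.s59_of_rt` are discharged by theorems on main:
* `S58Stmt`        := `Fermat.Agent.S58.result` (frozen S58);
* `PointEigenStmt` := `Fermat.Agent.GB.B7.Point.exists_eigenform_of_point_set` (helper83);
* `RaiseStmt`      := `Fermat.Agent.GE.Stab.exists_eigenform_of_dvd`.

`s59_of_engine : (∀ p ∈ {3,5}, RTStmtFL p) → (∀ p ∈ {3,5}, RTStmtSO p) → <frozen S59>`.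
-/
import Fermat.Agent.GE.Top.S59Engine
import Fermat.Agent.S58
import Fermat.Agent.GB.B7.Point
import Fermat.Agent.GE.Stab

set_option autoImplicit false

open WeierstrassCurve

namespace Fermat.Agent.GE.Top.S59Plug

open Fermat.Agent.GE.Top.S59Top Fermat.Agent.GE.Top.S59Nodes Fermat.Agent.GE.Top.S59Engine
  Fermat.Agent.GE.Graph

theorem s58Stmt : S58Stmt :=
  fun W hss N p _ hp2 hirr hp2N hN hbad hN3 =>
    Fermat.Agent.S58.result W hss N p hp2 hirr hp2N hN hbad hN3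

theorem pointEigenStmt : PointEigenStmt.{0} := by
  intro N _ S D _ _ _ χ
  obtain ⟨ι, hι, G, hG, hT, -⟩ := Fermat.Agent.GB.B7.Point.exists_eigenform_of_point_set S χ
  exact ⟨ι, hι, G, hG, hT⟩

theorem raiseStmt : RaiseStmt :=
  fun hMN hN' _ hg => Fermat.Agent.GE.Stab.exists_eigenform_of_dvd hMN hN' hg

/-- **frozen S59 from the engine contract** (`RTStmtFL p`, `RTStmtSO p` at `p = 3, 5`). -/
theorem s59_of_engine
    (hFL : ∀ (p : ℕ) [Fact p.Prime], p = 3 ∨ p = 5 → RTStmtFL p)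
    (hSO : ∀ (p : ℕ) [Fact p.Prime], p = 3 ∨ p = 5 → RTStmtSO p)
    (p : ℕ) (hp : p = 3 ∨ p = 5)
    (W : WeierstrassCurve ℤ) (hΔ : W.Δ ≠ 0) (hW : W.IsSemistableModel)
    (hirr : W.ModRepIsIrreducible p)
    (M₀ : ℕ) [NeZero M₀] (hres₀ : W.IsResiduallyModularOfLevel p M₀)
    (hM₀ : ¬ p ^ 2 ∣ M₀)
    (hM₀3 : ∀ q : ℕ, q.Prime → q ≠ p → ¬ q ^ 3 ∣ M₀) :
    Mlc1IsModularModelOfExactConductorLevel W :=
  s59_of_rt s58Stmt pointEigenStmt raiseStmt hFL hSO p hp W hΔ hW hirr M₀ hres₀ hM₀ hM₀3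

end Fermat.Agent.GE.Top.S59Plug
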