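/-
S59 PRE-WORK / GATE-E TOP, sixth layer (helper33): **frozen S59 from the RESIDUAL NODE LIST of the
engine** — ONE Lean signature for what is left of the gate.

`S59Plug.s59_of_engine` (frozen S59 ⟸ `RTStmtFL p`, `RTStmtSO p`, `p = 3, 5`) composed with
`GE/Engine/Top` (helper54 + helper20): `rtStmtFL_of_minLevel`, `rtStmtSO_of_minLevel`.

The residual nodes, each at `p = 3` and `p = 5`:
* `MinLevelFLStmt p`   : E8 descent to a minimal squarefree level prime to `p` (`W` good at `p`);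
* `MinLevelDichStmt p` : E8 descent with the dichotomy at `p` (`W` multiplicative at `p`);
* `TransvStmt p`       : IRR2 (`PThree`, `P5`: on main);
* `HeckeFLStmt p`      : the Hecke side, flat case (E6 + ETA-BASE + E9 steps);
* `MinHeckeSO p`       : the Hecke side, strict-ordinary case (très ramifiée base + PNEW + steps).
-/
import Fermat.Agent.GE.Top.S59Plug
import Fermat.Agent.GE.Engine.Top

set_option autoImplicit false

open WeierstrassCurve

namespace Fermat.Agent.GE.Top.S59Final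

open Fermat.Agent.GE.Graph Fermat.Agent.GE.Engine

theorem ne_two_of_three_or_five {p : ℕ} (hp : p = 3 ∨ p = 5) : p ≠ 2 := by
  rcases hp with h | h <;> omega

/-- **frozen S59 from the residual node list of the engine.** -/
theorem s59_of_engine_nodes
    (hMinFL : ∀ (p : ℕ) [Fact p.Prime], p = 3 ∨ p = 5 → MinLevelFLStmt p)
    (hMinD : ∀ (p : ℕ) [Fact p.Prime], p = 3 ∨ p = 5 → MinLevelDichStmt p)
    (hTr : ∀ (p : ℕ) [Fact p.Prime], p = 3 ∨ p = 5 → TransvStmt p)
    (hFL : ∀ (p : ℕ) [Fact p.Prime], p = 3 ∨ p = 5 → HeckeFLStmt p)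
    (hSO : ∀ (p : ℕ) [Fact p.Prime], p = 3 ∨ p = 5 → MinHeckeSO p)
    (p : ℕ) (hp : p = 3 ∨ p = 5)
    (W : WeierstrassCurve ℤ) (hΔ : W.Δ ≠ 0) (hW : W.IsSemistableModel)
    (hirr : W.ModRepIsIrreducible p)
    (M₀ : ℕ) [NeZero M₀] (hres₀ : W.IsResiduallyModularOfLevel p M₀)
    (hM₀ : ¬ p ^ 2 ∣ M₀)
    (hM₀3 : ∀ q : ℕ, q.Prime → q ≠ p → ¬ q ^ 3 ∣ M₀) :
    Mlc1IsModularModelOfExactConductorLevel W :=
  Fermat.Agent.GE.Top.S59Plug.s59_of_engine
    (fun p _ hp' => rtStmtFL_of_minLevel p (ne_two_of_three_or_five hp') (hMinFL p hp')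
      (hTr p hp') (hFL p hp'))
    (fun p _ hp' => rtStmtSO_of_minLevel p (ne_two_of_three_or_five hp') (hMinD p hp')
      (hSO p hp'))
    p hp W hΔ hW hirr M₀ hres₀ hM₀ hM₀3

end Fermat.Agent.GE.Top.S59Final
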