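/-
S59 PRE-WORK / GATE-E TOP, seventh layer (helper61): **frozen S59 from the OPEN LEAVES of the gate,
as the sub-gates deliver them.**

`S59Final.s59_of_engine_nodes` (helper33) takes five Props at `p = 3, 5`.  Three of them are closed
or reduced here:

* `TransvStmt p`       : IRR2, a theorem (`GE8/Irr2/PThree.hasTransvectionModP_three`,
                         `GE8/Irr2/P5/Final.hasTransvectionModP_five`) — `transvStmt_three`,
                         `transvStmt_five`, `transvStmt_of_three_or_five`;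
* `MinLevelFLStmt p`   : `MinLevelLeaves.minLevelFLStmt_of_SQ_caseB` (E8.4 closed by helper17);
* `MinLevelDichStmt p` : `MinLevelLeaves.minLevelDichStmt_of_leaves`.

**`s59_of_leaves`** : frozen S59 ⟸
  `SQSideStmt` (sub-gate SQ: NODE3K), `CaseB38minE 3`, `CaseB38minE 5` (sub-gate LLQ),
  `HeckeFLStmt 3/5` (E6 + ETA-BASE + StepFL), `MinHeckeSO 3/5` (SO base + RISK-4 + StepSO).
-/
import Fermat.Agent.GE.Top.S59Final
import Fermat.Agent.GE.Engine.MinLevelLeaves
import Fermat.Agent.GE8.Irr2.PThree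
import Fermat.Agent.GE8.Irr2.P5.Final

set_option autoImplicit false

open WeierstrassCurve

namespace Fermat.Agent.GE.Top.S59Leaves

open Fermat.Agent.GE.Graph Fermat.Agent.GE.Engine Fermat.Agent.GE.Engine.MinLevelLeaves
open Fermat.Agent.GE.Top.S59Final
open Fermat.Agent.GE8.SQ.AuxPlug Fermat.Agent.GE8.LLQ.S38Min

/-- **IRR2 at `p = 3`** in the engine's spelling. -/
theorem transvStmt_three [Fact (Nat.Prime 3)] : TransvStmt 3 :=
  fun W hΔ hW hirr => Fermat.Agent.GE8.Irr2.PThree.hasTransvectionModP_three W hΔ hW hirr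

/-- **IRR2 at `p = 5`** in the engine's spelling. -/
theorem transvStmt_five [Fact (Nat.Prime 5)] : TransvStmt 5 :=
  fun W hΔ hW hirr => Fermat.Agent.GE8.Irr2.P5.Final.hasTransvectionModP_five W hΔ hW hirr

/-- **IRR2 at `p = 3, 5`.** -/
theorem transvStmt_of_three_or_five (p : ℕ) [Fact p.Prime] (hp : p = 3 ∨ p = 5) :
    TransvStmt p := by
  rcases hp with rfl | rfl
  · exact transvStmt_three
  · exact transvStmt_five

/-- **frozen S59 from the open leaves of GATE-E**: SQ (NODE3K), CASE B at a minimal level, and the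
two Hecke-side Props, at `p = 3, 5`. -/
theorem s59_of_leaves (hSQ : SQSideStmt)
    (hB : ∀ (p : ℕ) [Fact p.Prime], p = 3 ∨ p = 5 → CaseB38minE p)
    (hFL : ∀ (p : ℕ) [Fact p.Prime], p = 3 ∨ p = 5 → HeckeFLStmt p)
    (hSO : ∀ (p : ℕ) [Fact p.Prime], p = 3 ∨ p = 5 → MinHeckeSO p)
    (p : ℕ) (hp : p = 3 ∨ p = 5)
    (W : WeierstrassCurve ℤ) (hΔ : W.Δ ≠ 0) (hW : W.IsSemistableModel)
    (hirr : W.ModRepIsIrreducible p)
    (M₀ : ℕ) [NeZero M₀] (hres₀ : W.IsResiduallyModularOfLevel p M₀)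
    (hM₀ : ¬ p ^ 2 ∣ M₀)
    (hM₀3 : ∀ q : ℕ, q.Prime → q ≠ p → ¬ q ^ 3 ∣ M₀) :
    Mlc1IsModularModelOfExactConductorLevel W :=
  s59_of_engine_nodes
    (fun p _ hp' => minLevelFLStmt_of_SQ_caseB (ne_two_of_three_or_five hp') hSQ (hB p hp'))
    (fun p _ hp' => minLevelDichStmt_of_leaves (ne_two_of_three_or_five hp') hSQ (hB p hp'))
    (fun p _ hp' => transvStmt_of_three_or_five p hp')
    hFL hSO p hp W hΔ hW hirr M₀ hres₀ hM₀ hM₀3

end Fermat.Agent.GE.Top.S59Leaves
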