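/-
S59 PRE-WORK / GATE-E TOP, eighth layer (helper61): **frozen S59 with the E8 side reduced to
`CaseB38minE 3` alone.**

On top of `S59Leaves.s59_of_leaves`:

* `hSQ : SQSideStmt`       := `GE8/SQ/Final.sqSideStmt` (helper97: E8.SQ closed binder-free);
* `CaseB38minE 5`          := `GE8/LLQ/CaseB/FiveClosed.caseB38minE_five` (helper28 + helper17:
                              closed binder-free);
* `minLevelFLStmt_three`, `minLevelDichStmt_three` : the two minimal-level Props of the engine at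
  `p = 3` from `CaseB38minE 3` (the `p = 5` ones are `FiveClosed.minLevelFLStmt_five`,
  `FiveClosed.minLevelDichStmt_five`).

**`s59_of_leaves2`** : frozen S59 ⟸ `CaseB38minE 3` (sub-gate LLQ, `p = 3`: RISK-5),
  `HeckeFLStmt 3/5`, `MinHeckeSO 3/5`.
-/
import Fermat.Agent.GE.Top.S59Leaves
import Fermat.Agent.GE8.SQ.Final
import Fermat.Agent.GE8.LLQ.CaseB.FiveClosed

set_option autoImplicit false

open WeierstrassCurve

namespace Fermat.Agent.GE.Top.S59Leaves2

open Fermat.Agent.GE.Graph Fermat.Agent.GE.Engine Fermat.Agent.GE.Engine.MinLevelLeaves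
open Fermat.Agent.GE.Top.S59Leaves
open Fermat.Agent.GE8.SQ.AuxPlug Fermat.Agent.GE8.LLQ.S38Min

/-- the minimal-level descent, flat case, `p = 3`, from CASE B at `3`. -/
theorem minLevelFLStmt_three [Fact (Nat.Prime 3)] (hB3 : CaseB38minE 3) : MinLevelFLStmt 3 :=
  minLevelFLStmt_of_SQ_caseB (by decide) Fermat.Agent.GE8.SQ.Final.sqSideStmt hB3

/-- the minimal-level descent with the dichotomy, `p = 3`, from CASE B at `3`. -/
theorem minLevelDichStmt_three [Fact (Nat.Prime 3)] (hB3 : CaseB38minE 3) :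
    MinLevelDichStmt 3 :=
  minLevelDichStmt_of_leaves (by decide) Fermat.Agent.GE8.SQ.Final.sqSideStmt hB3

/-- CASE B at `p = 3, 5` from CASE B at `3`. -/
theorem caseB38minE_of_three (hB3 : ∀ [Fact (Nat.Prime 3)], CaseB38minE 3)
    (p : ℕ) [Fact p.Prime] (hp : p = 3 ∨ p = 5) : CaseB38minE p := by
  rcases hp with rfl | rfl
  · exact hB3
  · exact Fermat.Agent.GE8.LLQ.CaseB.FiveClosed.caseB38minE_five

/-- **frozen S59 from `CaseB38minE 3` and the two Hecke-side Props at `p = 3, 5`.** -/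
theorem s59_of_leaves2 (hB3 : ∀ [Fact (Nat.Prime 3)], CaseB38minE 3)
    (hFL : ∀ (p : ℕ) [Fact p.Prime], p = 3 ∨ p = 5 → HeckeFLStmt p)
    (hSO : ∀ (p : ℕ) [Fact p.Prime], p = 3 ∨ p = 5 → MinHeckeSO p)
    (p : ℕ) (hp : p = 3 ∨ p = 5)
    (W : WeierstrassCurve ℤ) (hΔ : W.Δ ≠ 0) (hW : W.IsSemistableModel)
    (hirr : W.ModRepIsIrreducible p)
    (M₀ : ℕ) [NeZero M₀] (hres₀ : W.IsResiduallyModularOfLevel p M₀)
    (hM₀ : ¬ p ^ 2 ∣ M₀)
    (hM₀3 : ∀ q : ℕ, q.Prime → q ≠ p → ¬ q ^ 3 ∣ M₀) :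
    Mlc1IsModularModelOfExactConductorLevel W :=
  s59_of_leaves Fermat.Agent.GE8.SQ.Final.sqSideStmt
    (fun p _ hp' => caseB38minE_of_three hB3 p hp')
    hFL hSO p hp W hΔ hW hirr M₀ hres₀ hM₀ hM₀3

end Fermat.Agent.GE.Top.S59Leaves2
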