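/-
S59 PRE-WORK / GATE-E TOP, ninth layer (helper61): **frozen S59 over the P3B twin tree for BOTH
primes — NO module of the original GATE-B cone in the closure.**

`S59Leaves2.s59_of_leaves2` takes `CaseB38minE 5` from `FiveClosed` (→ `CaseB/TopE` → the ORIGINAL
`GB/B9/ProviderFlat/FlatGroups`, `ProviderNew/NewGroups`), so a top file over it would carry the
original cone AND its `p = 3`-capable twin `GE8/P3B/**` (helper6's generator run, RISK-5 (B4)).
The twins are stated for every odd `p` (`Ok3W p W`), hence `p = 5` can go through them as well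
(helper6 8123 §3, helper96 8116): this file is `S59Leaves.s59_of_leaves` with

* `hSQ` := `GE8/SQ/Final.sqSideStmt` (helper97);
* `CaseB38minE p`, `p = 3, 5` := helper28's `OddTop.caseB38minE_of_levelStmts` over the two level
  statements of the twin tree (`P3B…ProviderFlat.Top.LevelStmt`, `P3B…ProviderNew.Top.LevelStmtNew`)
  and IRR2 (`S59Leaves.transvStmt_of_three_or_five`).

It does NOT import `S59Leaves2` / `FiveClosed`.

**`s59_of_leaves3`** : frozen S59 ⟸ `LevelStmt`, `LevelStmtNew` (P3B), `HeckeFLStmt 3/5`,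
`MinHeckeSO 3/5`.  (To keep the closure cone-free the suppliers of the two Hecke-side Props must
come from the P3B twins as well.)
-/
import Fermat.Agent.GE.Top.S59Leaves
import Fermat.Agent.GE8.SQ.Final
import Fermat.Agent.GE8.LLQ.CaseB.OddTop

set_option autoImplicit false

open WeierstrassCurve

namespace Fermat.Agent.GE.Top.S59Leaves3

open Fermat.Agent.GE.Graph Fermat.Agent.GE.Engine
open Fermat.Agent.GE.Top.S59Leaves
open Fermat.Agent.GE8.SQ.AuxPlug Fermat.Agent.GE8.LLQ.S38Min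

/-- **CASE B at a minimal level, `p = 3, 5`, over the P3B twin tree.** -/
theorem caseB38minE_of_levelStmts
    (hF : Fermat.Agent.GE8.P3B.GB.B9.ProviderFlat.Top.LevelStmt)
    (hN : Fermat.Agent.GE8.P3B.GB.B9.ProviderNew.Top.LevelStmtNew)
    (p : ℕ) [Fact p.Prime] (hp : p = 3 ∨ p = 5) : CaseB38minE p :=
  Fermat.Agent.GE8.LLQ.CaseB.OddTop.caseB38minE_of_levelStmts
    (Fermat.Agent.GE.Top.S59Final.ne_two_of_three_or_five hp) hF hN
    (fun W hΔ hss hirr => transvStmt_of_three_or_five p hp W hΔ hss hirr)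

/-- **frozen S59 from the two level statements of the P3B twin tree and the two Hecke-side Props at
`p = 3, 5`** (cone-free closure). -/
theorem s59_of_leaves3
    (hF : Fermat.Agent.GE8.P3B.GB.B9.ProviderFlat.Top.LevelStmt)
    (hN : Fermat.Agent.GE8.P3B.GB.B9.ProviderNew.Top.LevelStmtNew)
    (hFL : ∀ (p : ℕ) [Fact p.Prime], p = 3 ∨ p = 5 → HeckeFLStmt p)
    (hSO : ∀ (p : ℕ) [Fact p.Prime], p = 3 ∨ p = 5 → MinHeckeSO p)
    (p : ℕ) (hp : p = 3 ∨ p = 5)
    (W : WeierstrassCurve ℤ) (hΔ : W.Δ ≠ 0) (hW : W.IsSemistableModel)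
    (hirr : W.ModRepIsIrreducible p)
    (M₀ : ℕ) [NeZero M₀] (hres₀ : W.IsResiduallyModularOfLevel p M₀)
    (hM₀ : ¬ p ^ 2 ∣ M₀)
    (hM₀3 : ∀ q : ℕ, q.Prime → q ≠ p → ¬ q ^ 3 ∣ M₀) :
    Mlc1IsModularModelOfExactConductorLevel W :=
  s59_of_leaves Fermat.Agent.GE8.SQ.Final.sqSideStmt
    (fun p _ hp' => caseB38minE_of_levelStmts hF hN p hp')
    hFL hSO p hp W hΔ hW hirr M₀ hres₀ hM₀ hM₀3

end Fermat.Agent.GE.Top.S59Leaves3
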