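/-
S59 PRE-WORK / GATE-E TOP, tenth layer (helper61): **frozen S59 from the TWO open leaves of
STATUS v7** (helper10, board 8194), every other arrow being a landed theorem; cone-free closure
(P3B twin tree at both primes).

On top of `S59Leaves3.s59_of_leaves3`:

* `hF`, `hN`        := `ThreeClosed.levelStmt`, `ThreeClosed.levelStmtNew` (helper28 + helper6: the
                       twins of `flatGroups` / `newGroups` for every odd `p`);
* `HeckeFLStmt p`   := `P3B.GE6.Inst.NodeFL.heckeFLStmt p` (helper72 + helper6, every `p`);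
* `MinHeckeSO p`    := `SOSplit.minHeckeSO_of_cases p (SO(a)) (SO(b))` with
  - SO(a) `MinHeckeSOa p` := `P3B…SOaPlug.minHeckeSOa_of_node p hp2 (IRR2) (NodeSOaStmt p)
      (NewLocPlugSq.stageNotResStmt_of_llq p hp2 (PlugTop.llqStmt_of_caseB hp2 (CaseB38minE p)))`
      — **open leaf C-a : `P3B.GE.Engine.SOaPlug.NodeSOaStmt p`** (E6 node statement for `condSO`);
  - SO(b) `MinHeckeSOb p` := `StepSObProof.minHeckeSOb_of_bases p hp2 (IRR2)
      (P3B…FLPlug.baseFLStmt_of_node p (P3B…NodeFL.nodeFLStmt p)) (BaseSObStmt p)`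
      — **open leaf C-b : `GE.Engine.BaseSObStmt p`** (the `p`-new base).

* `minHeckeSOa_of_nodeSOa`, `minHeckeSOb_of_baseSOb`, `minHeckeSO_of_leaves`;
* **`s59_of_leaves4`** : frozen S59 ⟸ `NodeSOaStmt 3/5` (P3B), `BaseSObStmt 3/5`.
-/
import Fermat.Agent.GE.Top.S59Leaves3
import Fermat.Agent.GE8.LLQ.CaseB.ThreeClosed
import Fermat.Agent.GE8.LLQ.Aux3.PlugTop
import Fermat.Agent.GE8.P3B.GE6.Inst.NodeFL
import Fermat.Agent.GE8.P3B.GE.Engine.SOaPlugFinal
import Fermat.Agent.GE.Engine.NewLocPlugSq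
import Fermat.Agent.GE.Engine.SOSplit
import Fermat.Agent.GE.Engine.StepSObProof

set_option autoImplicit false

open WeierstrassCurve

namespace Fermat.Agent.GE.Top.S59Leaves4

open Fermat.Agent.GE.Graph Fermat.Agent.GE.Engine
open Fermat.Agent.GE.Top.S59Leaves Fermat.Agent.GE.Top.S59Leaves3
open Fermat.Agent.GE8.LLQ.S38Min

/-- `p = 3, 5` is odd. -/
theorem ne_two {p : ℕ} (hp : p = 3 ∨ p = 5) : p ≠ 2 :=
  Fermat.Agent.GE.Top.S59Final.ne_two_of_three_or_five hp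

/-- **CASE B at a minimal level, `p = 3, 5`: closed** (P3B twin tree). -/
theorem caseB38minE (p : ℕ) [Fact p.Prime] (hp : p = 3 ∨ p = 5) : CaseB38minE p :=
  caseB38minE_of_levelStmts Fermat.Agent.GE8.LLQ.CaseB.ThreeClosed.levelStmt
    Fermat.Agent.GE8.LLQ.CaseB.ThreeClosed.levelStmtNew p hp

/-- **SO(a), très ramifiée branch**, from the twin E6 node statement for `condSO`. -/
theorem minHeckeSOa_of_nodeSOa (p : ℕ) [Fact p.Prime] (hp : p = 3 ∨ p = 5)
    (hnode : Fermat.Agent.GE8.P3B.GE.Engine.SOaPlug.NodeSOaStmt p) : MinHeckeSOa p :=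
  Fermat.Agent.GE8.P3B.GE.Engine.SOaPlug.minHeckeSOa_of_node p (ne_two hp)
    (transvStmt_of_three_or_five p hp) hnode
    (Fermat.Agent.GE.Engine.NewLocPlugSq.stageNotResStmt_of_llq p (ne_two hp)
      (Fermat.Agent.GE8.LLQ.Aux3.PlugTop.llqStmt_of_caseB (ne_two hp) (caseB38minE p hp)))

/-- **SO(b), peu ramifiée branch**, from the `p`-new base (flat base and step: theorems). -/
theorem minHeckeSOb_of_baseSOb (p : ℕ) [Fact p.Prime] (hp : p = 3 ∨ p = 5)
    (hB : BaseSObStmt p) : MinHeckeSOb p :=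
  minHeckeSOb_of_bases p (ne_two hp) (transvStmt_of_three_or_five p hp)
    (Fermat.Agent.GE8.P3B.GE.Engine.FLPlug.baseFLStmt_of_node p
      (Fermat.Agent.GE8.P3B.GE6.Inst.NodeFL.nodeFLStmt p)) hB

/-- **the strict-ordinary Hecke side at `p = 3, 5`** from the two open leaves. -/
theorem minHeckeSO_of_leaves (p : ℕ) [Fact p.Prime] (hp : p = 3 ∨ p = 5)
    (hnode : Fermat.Agent.GE8.P3B.GE.Engine.SOaPlug.NodeSOaStmt p) (hB : BaseSObStmt p) :
    MinHeckeSO p :=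
  minHeckeSO_of_cases p (minHeckeSOa_of_nodeSOa p hp hnode) (minHeckeSOb_of_baseSOb p hp hB)

/-- **frozen S59 from the two open leaves** (E6 node statement for `condSO`; the `p`-new base). -/
theorem s59_of_leaves4
    (hnode : ∀ (p : ℕ) [Fact p.Prime], p = 3 ∨ p = 5 →
      Fermat.Agent.GE8.P3B.GE.Engine.SOaPlug.NodeSOaStmt p)
    (hB : ∀ (p : ℕ) [Fact p.Prime], p = 3 ∨ p = 5 → BaseSObStmt p)
    (p : ℕ) (hp : p = 3 ∨ p = 5)
    (W : WeierstrassCurve ℤ) (hΔ : W.Δ ≠ 0) (hW : W.IsSemistableModel)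
    (hirr : W.ModRepIsIrreducible p)
    (M₀ : ℕ) [NeZero M₀] (hres₀ : W.IsResiduallyModularOfLevel p M₀)
    (hM₀ : ¬ p ^ 2 ∣ M₀)
    (hM₀3 : ∀ q : ℕ, q.Prime → q ≠ p → ¬ q ^ 3 ∣ M₀) :
    Mlc1IsModularModelOfExactConductorLevel W :=
  s59_of_leaves3 Fermat.Agent.GE8.LLQ.CaseB.ThreeClosed.levelStmt
    Fermat.Agent.GE8.LLQ.CaseB.ThreeClosed.levelStmtNew
    (fun p _ _ => Fermat.Agent.GE8.P3B.GE6.Inst.NodeFL.heckeFLStmt p)
    (fun p _ hp' => minHeckeSO_of_leaves p hp' (hnode p hp') (hB p hp'))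
    p hp W hΔ hW hirr M₀ hres₀ hM₀ hM₀3

end Fermat.Agent.GE.Top.S59Leaves4
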