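/-
S59 PRE-WORK / GATE-E TOP, third layer (helper33): **from `R_Σ ≅ T_Σ` to the point `χ` of the frozen
Hecke algebra** (node POINT; Prelude-only + `Lib/FrobeniusExists`).

Frozen vocabulary: `D : GaloisRep.DeformationRingData 𝒪 ρbar 𝒟` (S53), `H : CuspForm.HeckeGaloisRepDatum
N S 𝒪 θ T` (S54), and the comparison map `φ : D.R →ₐ[𝒪] T` of frozen S54 (surjective, with
`(D.ρ.baseChangeAlong φ).IsEquiv H.ρ`).  IF `φ` is bijective (the engine E6 + E9) THEN every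
deformation `ρ₀ : GaloisRepAdic 𝒪` of type `𝒟` whose Frobenius characteristic polynomials are
`X² − a_ℓ X + ℓ` is "modular": there is a ring hom `χ : 𝕋_S(N) → 𝒪` with `χ(T_ℓ) = a_ℓ`.

* `exists_point_of_bijective` : the abstract statement;
* `EngineOutStmt p`           : the engine output in frozen vocabulary, for `W` as in frozen S59;
* `modPointStmt_of_engineOut` : `EngineOutStmt p → S59Nodes.ModPointStmt p`.
-/
import Fermat.Agent.GE.Top.S59Nodes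
import Fermat.Agent.Lib.FrobeniusExists
import Fermat.Prelude.Def_CuspForm_HeckeGaloisRepDatum
import Fermat.Prelude.Def_GaloisRep_DeformationRingData

set_option autoImplicit false

open Polynomial WeierstrassCurve

namespace Fermat.Agent.GE.Top.S59Point

open Fermat.Agent.GE.Top.S59Top Fermat.Agent.GE.Top.S59Nodes

/-- conjugation invariance of the characteristic polynomial (twin of `S54.charpoly_eq_of_equiv`). -/
theorem charpoly_of_equiv {A : Type} [CommRing A] [IsLocalRing A] {ρ₁ ρ₂ : GaloisRepAdic A}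
    (e : GaloisRepAdic.Equiv ρ₁ ρ₂) (σ : AlgebraicClosure ℚ ≃ₐ[ℚ] AlgebraicClosure ℚ) :
    LinearMap.charpoly (ρ₂.ρ σ) = LinearMap.charpoly (ρ₁.ρ σ) := by
  have h : ρ₂.ρ σ = e.toLinearEquiv.conj (ρ₁.ρ σ) := by
    apply LinearMap.ext
    intro x
    rw [LinearEquiv.conj_apply_apply, e.map_apply, LinearEquiv.apply_symm_apply]
  rw [h, LinearEquiv.charpoly_conj]

/-- characteristic polynomial of a base change (twin of `S54.charpoly_baseChangeAlong`). -/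
theorem charpoly_baseChangeAlong' {A B : Type} [CommRing A] [IsLocalRing A] [CommRing B]
    [IsLocalRing B] (φ : A →+* B) (hφ : IsLocalHom φ) (ρ : GaloisRepAdic A)
    (σ : AlgebraicClosure ℚ ≃ₐ[ℚ] AlgebraicClosure ℚ) :
    LinearMap.charpoly ((ρ.baseChangeAlong φ hφ).ρ σ) = (LinearMap.charpoly (ρ.ρ σ)).map φ := by
  let _ : Algebra A B := φ.toAlgebra
  exact LinearMap.charpoly_baseChange (ρ.ρ σ) B

theorem coeff_one_quad {A : Type} [CommRing A] (a b : A) :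
    (X ^ 2 - C a * X + C b : A[X]).coeff 1 = -a := by
  simp [coeff_X_pow, coeff_C]

/-- **POINT**: if the comparison map `R → T` is bijective, every deformation of type `𝒟` over `𝒪`
with prescribed Frobenius characteristic polynomials gives a point of the Hecke algebra with the
prescribed eigenvalues. -/
theorem exists_point_of_bijective
    {𝒪 : Type} [CommRing 𝒪] [IsDomain 𝒪] [IsDiscreteValuationRing 𝒪]
    [IsAdicComplete (IsLocalRing.maximalIdeal 𝒪) 𝒪]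
    {ρbar : ResidualGaloisRep (IsLocalRing.ResidueField 𝒪)}
    {𝒟 : ∀ ⦃A : Type⦄ [CommRing A] [IsLocalRing A] [Algebra 𝒪 A], GaloisRepAdic A → Prop}
    (D : GaloisRep.DeformationRingData 𝒪 ρbar 𝒟) {N : ℕ} [NeZero N] {S : Set ℕ}
    {θ : CuspForm.heckeAlgebra N 2 S →+* IsLocalRing.ResidueField 𝒪} {T : Type} [CommRing T]
    [IsLocalRing T] [IsNoetherianRing T] [IsAdicComplete (IsLocalRing.maximalIdeal T) T]
    [Algebra 𝒪 T] [IsLocalHom (algebraMap 𝒪 T)] [Module.Finite 𝒪 T] [Module.Free 𝒪 T]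
    (H : CuspForm.HeckeGaloisRepDatum N S 𝒪 θ T)
    (φ : D.R →ₐ[𝒪] T) (hφb : Function.Bijective φ) (hφ : IsLocalHom (φ : D.R →+* T))
    (hφρ : (D.ρ.baseChangeAlong (φ : D.R →+* T) hφ).IsEquiv H.ρ)
    (ρ₀ : GaloisRepAdic 𝒪) (h𝒟 : 𝒟 ρ₀)
    (hres : ρ₀.residual.IsEquiv
      (ρbar.baseChangeAlong (IsLocalRing.ResidueField.map (algebraMap 𝒪 𝒪))))
    (a : ℕ → 𝒪) (P : ℕ → Prop)
    (hfrob : ∀ ℓ : ℕ, ℓ.Prime → ¬ ℓ ∣ N → ℓ ∉ S → P ℓ →
      ∀ A : ValuationSubring (AlgebraicClosure ℚ), A.LiesOverPrime ℓ →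
      ∀ σ : AlgebraicClosure ℚ ≃ₐ[ℚ] AlgebraicClosure ℚ, A.IsFrobeniusAt σ ℓ →
        LinearMap.charpoly (ρ₀.ρ σ) = X ^ 2 - C (a ℓ) * X + C ((ℓ : 𝒪))) :
    ∃ χ : CuspForm.heckeAlgebra N 2 S →+* 𝒪,
      ∀ (ℓ : ℕ) (hℓ : ℓ.Prime) (hℓN : ¬ ℓ ∣ N) (hℓS : ℓ ∉ S), P ℓ →
        χ (CuspForm.heckeAlgebra.T hℓ hℓN hℓS) = a ℓ := by
  -- the point of `R` defined by `ρ₀`
  obtain ⟨x, ⟨hx, ⟨ex⟩⟩, -⟩ := D.universal 𝒪 (by
      intro y
      obtain ⟨z, rfl⟩ := IsLocalRing.residue_surjective y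
      exact ⟨z, rfl⟩) ρ₀ h𝒟 hres
  obtain ⟨eφ⟩ := hφρ
  let e : D.R ≃+* T := RingEquiv.ofBijective (φ : D.R →+* T) hφb
  refine ⟨((x : D.R →+* 𝒪).comp (e.symm : T →+* D.R)).comp H.π, ?_⟩
  intro ℓ hℓ hℓN hℓS hP
  obtain ⟨A, hA, σ, hσ⟩ := Fermat.Agent.Lib.Frob.exists_valuationSubring_isFrobeniusAt hℓ
  -- the two characteristic polynomials, both images of the universal one
  have h1 := charpoly_of_equiv eφ σ
  rw [charpoly_baseChangeAlong', H.charpoly_frob ℓ hℓ hℓN hℓS A hA σ hσ] at h1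
  have h2 := charpoly_of_equiv ex σ
  rw [charpoly_baseChangeAlong', hfrob ℓ hℓ hℓN hℓS hP A hA σ hσ] at h2
  have c1 := congrArg (fun q => Polynomial.coeff q 1) h1
  have c2 := congrArg (fun q => Polynomial.coeff q 1) h2
  simp only [coeff_one_quad, Polynomial.coeff_map] at c1 c2
  -- `c1 : -π(T_ℓ) = φ (c)`, `c2 : -a ℓ = x (c)`
  have h3 : e.symm (H.π (CuspForm.heckeAlgebra.T hℓ hℓN hℓS)) =
      -(LinearMap.charpoly (D.ρ.ρ σ)).coeff 1 := by
    rw [RingEquiv.symm_apply_eq]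
    change _ = (φ : D.R →+* T) _
    rw [map_neg, ← c1, neg_neg]
  change (x : D.R →+* 𝒪) (e.symm (H.π (CuspForm.heckeAlgebra.T hℓ hℓN hℓS))) = a ℓ
  rw [h3, map_neg, ← c2, neg_neg]

/-- **the engine output in frozen vocabulary** for a curve `W` and a prime `p`:
a deformation ring (frozen S53 shape), a Hecke datum (frozen S54 shape) at level `N` with BIJECTIVE
comparison map, a deformation `ρ₀` over `𝒪` of the right type with the Frobenius polynomials of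
`W`, and an admissible level `N'` (multiple of `N` and of the primes of `S`). -/
structure EngineOut (W : WeierstrassCurve ℤ) (p : ℕ) : Type 1 where
  𝒪 : Type
  [instCommRing : CommRing 𝒪]
  [instIsDomain : IsDomain 𝒪]
  [instDVR : IsDiscreteValuationRing 𝒪]
  [instComplete : IsAdicComplete (IsLocalRing.maximalIdeal 𝒪) 𝒪]
  [instCharZero : CharZero 𝒪]
  ρbar : ResidualGaloisRep (IsLocalRing.ResidueField 𝒪)
  𝒟 : ∀ ⦃A : Type⦄ [CommRing A] [IsLocalRing A] [Algebra 𝒪 A], GaloisRepAdic A → Prop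
  D : GaloisRep.DeformationRingData 𝒪 ρbar 𝒟
  N : ℕ
  N' : ℕ
  [instNeZero : NeZero N]
  S : Set ℕ
  θ : CuspForm.heckeAlgebra N 2 S →+* IsLocalRing.ResidueField 𝒪
  T : Type
  [instCommRingT : CommRing T]
  [instIsLocalRingT : IsLocalRing T]
  [instIsNoetherianRingT : IsNoetherianRing T]
  [instCompleteT : IsAdicComplete (IsLocalRing.maximalIdeal T) T]
  [instAlgebraT : Algebra 𝒪 T]
  [instIsLocalHomT : IsLocalHom (algebraMap 𝒪 T)]
  [instFiniteT : Module.Finite 𝒪 T]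
  [instFreeT : Module.Free 𝒪 T]
  H : CuspForm.HeckeGaloisRepDatum N S 𝒪 θ T
  φ : D.R →ₐ[𝒪] T
  bijective_φ : Function.Bijective φ
  isLocalHom_φ : IsLocalHom (φ : D.R →+* T)
  isEquiv_φ : (D.ρ.baseChangeAlong (φ : D.R →+* T) isLocalHom_φ).IsEquiv H.ρ
  ρ₀ : GaloisRepAdic 𝒪
  isOfType : 𝒟 ρ₀
  residual_isEquiv : ρ₀.residual.IsEquiv
    (ρbar.baseChangeAlong (IsLocalRing.ResidueField.map (algebraMap 𝒪 𝒪)))
  charpoly_frob : ∀ ℓ : ℕ, ℓ.Prime → ¬ ℓ ∣ N → ℓ ∉ S → W.IsGoodPrimeFor ℓ →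
    ∀ A : ValuationSubring (AlgebraicClosure ℚ), A.LiesOverPrime ℓ →
    ∀ σ : AlgebraicClosure ℚ ≃ₐ[ℚ] AlgebraicClosure ℚ, A.IsFrobeniusAt σ ℓ →
      LinearMap.charpoly (ρ₀.ρ σ) = X ^ 2 - C (((W.apOfModel ℓ : ℤ) : 𝒪)) * X + C ((ℓ : 𝒪))
  dvd : N ∣ N'
  ne_zero : N' ≠ 0
  not_sq_dvd : ¬ p ^ 2 ∣ N'
  cubefree : ∀ q : ℕ, q.Prime → ¬ q ^ 3 ∣ N'
  bad_dvd : ∀ ℓ : ℕ, ℓ.Prime → (ℓ : ℤ) ∣ W.Δ → ℓ ∣ N'
  S_dvd : ∀ ℓ ∈ S, ℓ.Prime → ℓ ∣ N'

attribute [instance] EngineOut.instCommRing EngineOut.instIsDomain EngineOut.instDVR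
  EngineOut.instComplete EngineOut.instCharZero EngineOut.instNeZero EngineOut.instCommRingT
  EngineOut.instIsLocalRingT EngineOut.instIsNoetherianRingT EngineOut.instCompleteT
  EngineOut.instAlgebraT EngineOut.instIsLocalHomT EngineOut.instFiniteT EngineOut.instFreeT

/-- the engine contract: an `EngineOut W p` for every `W` as in frozen S59. -/
def EngineOutStmt (p : ℕ) : Prop :=
  ∀ (W : WeierstrassCurve ℤ), W.Δ ≠ 0 → W.IsSemistableModel → W.ModRepIsIrreducible p →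
    ∀ (M₀ : ℕ) [NeZero M₀], W.IsResiduallyModularOfLevel p M₀ → ¬ p ^ 2 ∣ M₀ →
    (∀ q : ℕ, q.Prime → q ≠ p → ¬ q ^ 3 ∣ M₀) → Nonempty (EngineOut W p)

/-- **`ModPointStmt p` from the engine output.** -/
theorem modPointStmt_of_engineOut (p : ℕ) (h : EngineOutStmt p) : ModPointStmt.{0} p := by
  intro W hΔ hW hirr M₀ _ hres hM₀ hM₀3
  obtain ⟨E⟩ := h W hΔ hW hirr M₀ hres hM₀ hM₀3
  obtain ⟨χ, hχ⟩ := exists_point_of_bijective E.D E.H E.φ E.bijective_φ E.isLocalHom_φ E.isEquiv_φ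
    E.ρ₀ E.isOfType E.residual_isEquiv (fun ℓ => ((W.apOfModel ℓ : ℤ) : E.𝒪))
    (fun ℓ => W.IsGoodPrimeFor ℓ) E.charpoly_frob
  exact ⟨E.N, E.N', E.instNeZero, E.S, E.𝒪, inferInstance, inferInstance, inferInstance, χ,
    E.dvd, E.ne_zero, E.not_sq_dvd, E.cubefree, E.bad_dvd, E.S_dvd, hχ⟩

/-- **`LiftStmt p` from the engine output** and the two nodes that are on main. -/
theorem liftStmt_of_engineOut (p : ℕ) (h : EngineOutStmt p) (hP : PointEigenStmt.{0})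
    (hR : RaiseStmt) : LiftStmt p :=
  liftStmt_of_nodes p (modPointStmt_of_engineOut p h) hP hR

end Fermat.Agent.GE.Top.S59Point
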