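/-
S59 PRE-WORK / GATE-E TOP (helper33): **frozen S59 in hypothesis form.**

Frozen S59 (modularity lifting at `p ∈ {3, 5}`):
  `W` semistable, `ρ̄_{W,p}` irreducible, residually modular of SOME level `M₀` with `p² ∤ M₀` and
  `q³ ∤ M₀` (`q ≠ p`)  ⟹  `Mlc1IsModularModelOfExactConductorLevel W`.

Reduction (helper55 5010 §0 (i)): by frozen S58 (`Fermat.Agent.S58.result`, on main) it is enough to
show that `W` is modular of SOME level `N` with `p² ∤ N`, `N` cube-free and divisible by the bad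
primes of `W`.  This file is Prelude-only (seconds to build); S58 enters as the binder `S58Stmt`
(plug: `GE/Top/S59Plug.lean`).

* `S58Stmt`          : the frozen statement S58 as a `Prop`;
* `LiftStmt p`       : **the GATE-E contract** = modularity lifting at SOME admissible level;
* `mlc1_of_conductorLevel` : `IsModularModelOfLevel W.conductorLevel ⟹ Mlc1…ExactConductorLevel`;
* `s59_of_lift`      : frozen S59 VERBATIM from `S58Stmt` and `LiftStmt p`.
-/
import Fermat.Statements.S59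
import Fermat.Statements.S58

set_option autoImplicit false

open WeierstrassCurve

namespace Fermat.Agent.GE.Top.S59Top

/-- frozen S58, as a `Prop` (so that this file does not import the closure of `S58.lean`). -/
def S58Stmt : Prop :=
  ∀ (W : WeierstrassCurve ℤ), W.IsSemistableModel → ∀ (N : ℕ) (p : ℕ) [Fact p.Prime], p ≠ 2 →
    W.ModRepIsIrreducible p → ¬ p ^ 2 ∣ N → W.IsModularModelOfLevel N →
    (∀ ℓ : ℕ, ℓ.Prime → (ℓ : ℤ) ∣ W.Δ → ℓ ∣ N) → (∀ q : ℕ, q.Prime → ¬ q ^ 3 ∣ N) →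
    W.IsModularModelOfLevel W.conductorLevel

/-- **the GATE-E contract**: modularity lifting at SOME admissible level `N`
(`p² ∤ N`, cube-free, divisible by the bad primes). -/
def LiftStmt (p : ℕ) : Prop :=
  ∀ (W : WeierstrassCurve ℤ), W.Δ ≠ 0 → W.IsSemistableModel → W.ModRepIsIrreducible p →
    ∀ (M₀ : ℕ) [NeZero M₀], W.IsResiduallyModularOfLevel p M₀ → ¬ p ^ 2 ∣ M₀ →
    (∀ q : ℕ, q.Prime → q ≠ p → ¬ q ^ 3 ∣ M₀) →
    ∃ N : ℕ, W.IsModularModelOfLevel N ∧ ¬ p ^ 2 ∣ N ∧ (∀ q : ℕ, q.Prime → ¬ q ^ 3 ∣ N) ∧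
      ∀ ℓ : ℕ, ℓ.Prime → (ℓ : ℤ) ∣ W.Δ → ℓ ∣ N

/-- modular of level `radical Δ` ⟹ the frozen conclusion of S59. -/
theorem mlc1_of_conductorLevel (W : WeierstrassCurve ℤ) (hΔ : W.Δ ≠ 0)
    (h : W.IsModularModelOfLevel W.conductorLevel) : Mlc1IsModularModelOfExactConductorLevel W :=
  ⟨W.conductorLevel, W.conductorLevel_pos, W.squarefree_conductorLevel,
    fun _ hq => W.prime_dvd_conductorLevel_iff hΔ hq, h⟩

/-- **Frozen S59 from S58 and the lifting contract.** -/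
theorem s59_of_lift (h58 : S58Stmt) (p : ℕ) (hp : p = 3 ∨ p = 5) (hL : LiftStmt p)
    (W : WeierstrassCurve ℤ) (hΔ : W.Δ ≠ 0) (hW : W.IsSemistableModel)
    (hirr : W.ModRepIsIrreducible p)
    (M₀ : ℕ) [NeZero M₀] (hres₀ : W.IsResiduallyModularOfLevel p M₀)
    (hM₀ : ¬ p ^ 2 ∣ M₀)
    (hM₀3 : ∀ q : ℕ, q.Prime → q ≠ p → ¬ q ^ 3 ∣ M₀) :
    Mlc1IsModularModelOfExactConductorLevel W := by
  obtain ⟨N, hN, hp2N, hN3, hbad⟩ := hL W hΔ hW hirr M₀ hres₀ hM₀ hM₀3
  have hpp : p.Prime := by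
    rcases hp with rfl | rfl
    · exact Nat.prime_three
    · exact Nat.prime_five
  have hp2 : p ≠ 2 := by
    rcases hp with rfl | rfl <;> decide
  have : Fact p.Prime := ⟨hpp⟩
  exact mlc1_of_conductorLevel W hΔ (h58 W hW N p hp2 hirr hp2N hN hbad hN3)

end Fermat.Agent.GE.Top.S59Top
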